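import Fermat.Agent.S36.Gre.Interface

/-!
# S36 / Gre / D1c : `ϖ'` has `e` distinct conjugates under inertia
-/

set_option autoImplicit false

noncomputable section

namespace Fermat.Agent.S36.Gre

open Fermat.Agent
open Fermat.Agent.S24 (Qbar)
open Fermat.Agent.ES.Mid (GQ)
open Polynomial

/-- ultrametric independence of `1, ϖ, …, ϖ^(e-1)` over a field whose values are in `v(ϖ)^(eℤ)`. -/
theorem Conj_sum_ne_zero {K Γ : Type*} [Field K] [LinearOrderedCommGroupWithZero Γ]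
    (v : Valuation K Γ) (ϖ : K) (e : ℕ) (h0 : ϖ ≠ 0) (h1 : v ϖ < 1) (c : ℕ → K)
    (hc : ∀ l, c l ≠ 0 → ∃ k : ℤ, v (c l) = v ϖ ^ ((e : ℤ) * k))
    (hne : ∃ l < e, c l ≠ 0) : ∑ l ∈ Finset.range e, c l * ϖ ^ l ≠ 0 := by
  classical
  obtain ⟨l0, hl0, hcl0⟩ := hne
  have hv0 : v ϖ ≠ 0 := (v.ne_zero_iff).2 h0
  obtain ⟨j, hj, hmax⟩ := Finset.exists_max_image (Finset.range e) (fun l => v (c l * ϖ ^ l))
    ⟨l0, Finset.mem_range.2 hl0⟩
  have hterm : ∀ l, c l ≠ 0 → v (c l * ϖ ^ l) ≠ 0 := fun l hl =>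
    (v.ne_zero_iff).2 (mul_ne_zero hl (pow_ne_zero _ h0))
  have hjne : c j ≠ 0 := by
    intro h
    have h2 := hmax l0 (Finset.mem_range.2 hl0)
    simp only [h, zero_mul, map_zero, le_zero_iff] at h2
    exact hterm l0 hcl0 h2
  have key : v (∑ l ∈ Finset.range e, c l * ϖ ^ l) = v (c j * ϖ ^ j) := by
    refine v.map_sum_eq_of_lt hj fun i hi => ?_
    rw [Finset.mem_sdiff, Finset.mem_singleton] at hi
    refine lt_of_le_of_ne (hmax i hi.1) fun heq => ?_
    by_cases hci : c i = 0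
    · rw [hci, zero_mul, map_zero] at heq
      exact hterm j hjne heq.symm
    · obtain ⟨ki, hki⟩ := hc i hci
      obtain ⟨kj, hkj⟩ := hc j hjne
      rw [map_mul, map_mul, map_pow, map_pow, hki, hkj, ← zpow_natCast (v ϖ) i,
        ← zpow_natCast (v ϖ) j, ← zpow_add₀ hv0, ← zpow_add₀ hv0] at heq
      have h3 := zpow_right_injective₀ (zero_lt_iff.2 hv0) h1.ne heq
      have hi' : i < e := Finset.mem_range.1 hi.1
      have hj' : j < e := Finset.mem_range.1 hj
      have h4 : ((i : ℤ)) % e = (j : ℤ) % e := by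
        have e1 : ((e : ℤ) * ki + i) % e = (i : ℤ) % e := Int.mul_add_emod_self_left _ _ _
        have e2 : ((e : ℤ) * kj + j) % e = (j : ℤ) % e := Int.mul_add_emod_self_left _ _ _
        rw [← e1, ← e2, h3]
      rw [Int.emod_eq_of_lt (by positivity) (by exact_mod_cast hi'),
        Int.emod_eq_of_lt (by positivity) (by exact_mod_cast hj')] at h4
      exact hi.2 (by exact_mod_cast h4)
  intro hsum
  rw [hsum, map_zero] at key
  exact hterm j hjne key.symm

/-- the orbit of an algebraic number under a subgroup of `G_ℚ` is finite. -/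
theorem Conj_exists_orbit (I : Subgroup GQ) (x : Qbar) :
    ∃ S : Finset Qbar, ∀ s, s ∈ S ↔ ∃ σ ∈ I, σ x = s := by
  have : Algebra.IsAlgebraic ℚ Qbar := AlgebraicClosure.isAlgebraic ℚ
  have hx : IsIntegral ℚ x := (Algebra.IsAlgebraic.isAlgebraic x).isIntegral
  have hfin : {s : Qbar | ∃ σ ∈ I, σ x = s}.Finite := by
    refine (Polynomial.rootSet_finite (minpoly ℚ x) Qbar).subset ?_
    rintro s ⟨σ, -, rfl⟩
    rw [Polynomial.mem_rootSet]
    refine ⟨minpoly.ne_zero hx, ?_⟩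
    rw [Polynomial.aeval_algHom_apply, minpoly.aeval, map_zero]
  exact ⟨hfin.toFinset, fun s => by rw [Set.Finite.mem_toFinset]; rfl⟩

/-- the coefficients of the orbit polynomial are invariant. -/
theorem Conj_coeff_fixed (I : Subgroup GQ) (x : Qbar) (S : Finset Qbar)
    (hS : ∀ s, s ∈ S ↔ ∃ σ ∈ I, σ x = s) (σ : GQ) (hσ : σ ∈ I) (l : ℕ) :
    σ ((∏ s ∈ S, (X - C s)).coeff l) = (∏ s ∈ S, (X - C s)).coeff l := by
  classical
  have himg : S.image σ = S := by
    refine Finset.eq_of_subset_of_card_le ?_ ?_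
    · intro s hs
      obtain ⟨t, ht, rfl⟩ := Finset.mem_image.1 hs
      obtain ⟨τ, hτ, rfl⟩ := (hS t).1 ht
      exact (hS _).2 ⟨σ * τ, I.mul_mem hσ hτ, rfl⟩
    · rw [Finset.card_image_of_injective _ σ.injective]
  have hmap : (∏ s ∈ S, (X - C s)).map (σ : Qbar →+* Qbar) = ∏ s ∈ S, (X - C s) := by
    rw [Polynomial.map_prod]
    conv_rhs => rw [← himg]
    rw [Finset.prod_image (fun a _ b _ h => σ.injective h)]
    refine Finset.prod_congr rfl fun s _ => ?_
    rw [Polynomial.map_sub, Polynomial.map_X, Polynomial.map_C]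
    rfl
  have := congrArg (fun p => p.coeff l) hmap
  simp only [Polynomial.coeff_map] at this
  exact this

/-- **(D1c)** -/
theorem conj (h : Base.Stmt_Unram) : Stmt_Conj := by
  classical
  intro r A hr hA e ϖ' hroot
  obtain ⟨he, h0, h1, h2⟩ := hroot
  have hr0 : (r : Qbar) ≠ 0 := by exact_mod_cast hr.ne_zero
  have hvr0 : A.valuation (r : Qbar) ≠ 0 := (A.valuation.ne_zero_iff).2 hr0
  have hvr : A.valuation (r : Qbar) < 1 := (A.mem_nonunits_iff).1 hA
  -- `v(ϖ')^e = v(r)`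
  have hve : A.valuation ϖ' ^ e = A.valuation (r : Qbar) := by
    rw [← A.valuation_le_one_iff, map_div₀, div_le_one₀ (zero_lt_iff.2 hvr0), map_pow] at h1
    have hp0 : A.valuation ϖ' ^ e ≠ 0 := pow_ne_zero _ ((A.valuation.ne_zero_iff).2 h0)
    rw [← A.valuation_le_one_iff, map_div₀, map_pow, div_le_one₀ (zero_lt_iff.2 hp0)] at h2
    exact le_antisymm h1 h2
  have hv1 : A.valuation ϖ' < 1 := by
    by_contra hcon
    have := one_le_pow₀ (n := e) (not_lt.1 hcon)
    rw [hve] at this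
    exact absurd hvr (not_lt.2 this)
  obtain ⟨S, hS⟩ := Conj_exists_orbit (A.inertiaSubgroupIn ℚ) ϖ'
  have hmem : ϖ' ∈ S := (hS _).2 ⟨1, Subgroup.one_mem _, rfl⟩
  have hmonic : (∏ s ∈ S, (X - C s)).Monic := monic_prod_of_monic _ _ fun s _ => monic_X_sub_C s
  have hdeg : (∏ s ∈ S, (X - C s)).natDegree = S.card := by
    rw [natDegree_prod_of_monic _ _ fun s _ => monic_X_sub_C s]
    simp
  have hcard : e ≤ S.card := by
    by_contra hcon
    have hlt : S.card < e := not_le.1 hcon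
    have heval : (∏ s ∈ S, (X - C s)).eval ϖ' = 0 := by
      rw [eval_prod]
      exact Finset.prod_eq_zero hmem (by simp)
    rw [eval_eq_sum_range' (by rw [hdeg]; exact hlt)] at heval
    refine Conj_sum_ne_zero A.valuation ϖ' e h0 hv1 (fun l => (∏ s ∈ S, (X - C s)).coeff l)
      ?_ ⟨S.card, hlt, ?_⟩ heval
    · intro l hl
      obtain ⟨k, hk1, hk2⟩ := h r A hr hA _ hl
        (fun σ hσ => Conj_coeff_fixed _ ϖ' S hS σ hσ l)
      refine ⟨-k, ?_⟩
      rw [← A.valuation_le_one_iff] at hk1 hk2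
      rw [map_inv₀] at hk2
      have hne : A.valuation ((∏ s ∈ S, (X - C s)).coeff l * (r : Qbar) ^ k) ≠ 0 :=
        (A.valuation.ne_zero_iff).2 (mul_ne_zero hl (zpow_ne_zero _ hr0))
      have h3 : A.valuation ((∏ s ∈ S, (X - C s)).coeff l * (r : Qbar) ^ k) = 1 :=
        le_antisymm hk1 ((inv_le_one₀ (zero_lt_iff.2 hne)).1 hk2)
      rw [map_mul, map_zpow₀, ← hve] at h3
      rw [mul_neg, zpow_neg, zpow_mul, zpow_natCast]
      exact eq_inv_of_mul_eq_one_left h3
    · show (∏ s ∈ S, (X - C s)).coeff S.card ≠ 0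
      rw [← hdeg, hmonic.coeff_natDegree]
      exact one_ne_zero
  -- choose `e` distinct elements of the orbit
  let g : Fin e → S := fun a => S.equivFin.symm (Fin.castLE hcard a)
  have hg : Function.Injective g :=
    S.equivFin.symm.injective.comp (Fin.castLE_injective hcard)
  have hsel : ∀ a, ∃ σ ∈ A.inertiaSubgroupIn ℚ, σ ϖ' = (g a : Qbar) := fun a => (hS _).1 (g a).2
  choose σ hσ1 hσ2 using hsel
  refine ⟨σ, hσ1, ?_⟩
  intro a b hab
  apply hg
  apply Subtype.ext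
  rw [← hσ2 a, ← hσ2 b]
  exact hab

end Fermat.Agent.S36.Gre

end
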