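import Fermat.Agent.S36.Gre.Interface
import Fermat.Agent.S36.Val.GVApi
import Fermat.Agent.ES.Mid.IntRep

/-!
# S36 / Gre (G0) : a Gauss reduction datum is given by `GInt`, `gred`  (`Stmt_GaussBridge`)
-/

set_option autoImplicit false
set_option synthInstance.maxHeartbeats 400000

noncomputable section

namespace Fermat.Agent.S36.Gre

open Fermat.Agent
open Fermat.Agent.S24 (Qbar FF)
open Fermat.Agent.S24.QX (qExpHom)
open Fermat.Agent.INJ (RedData)
open Fermat.Agent.INJ.Inst (kA IsGauss)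
open Fermat.Agent.INJ.Inst.Gauss (rho inc)
open Fermat.Agent.S36.Val

/-- a Gauss-integral constant lies in `A`. -/
theorem GB_const_mem {A : ValuationSubring Qbar} {c : Qbar}
    (h : GInt A (algebraMap Qbar (LaurentSeries Qbar) c)) : c ∈ A := by
  obtain ⟨f, g, hg, he⟩ := h
  have h1 : ∃ n, (rho (resA A) g).coeff n ≠ 0 := by
    by_contra hcon
    refine hg (HahnSeries.ext (funext fun n => ?_))
    by_contra hn
    exact hcon ⟨n, hn⟩
  obtain ⟨n, hn⟩ := h1
  have hn' : resA A (g.coeff n) ≠ 0 := hn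
  have hu : IsUnit (g.coeff n) := by
    by_contra hnu
    exact hn' ((IsLocalRing.residue_eq_zero_iff _).2 ((IsLocalRing.mem_maximalIdeal _).2 hnu))
  have h2 := congrArg (fun z => HahnSeries.coeff z n) he
  rw [ModularCurve.algebraMap_laurentSeries_eq_single, HahnSeries.coeff_single_zero_mul] at h2
  have h3 : c * ((g.coeff n : A) : Qbar) = ((f.coeff n : A) : Qbar) := h2
  obtain ⟨u, hu⟩ := hu
  have h4 : ((g.coeff n : A) : Qbar) * (((u⁻¹ : Aˣ) : A) : Qbar) = 1 := by
    rw [← hu]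
    exact_mod_cast congrArg Subtype.val u.mul_inv
  have h5 : c = ((f.coeff n * ((u⁻¹ : Aˣ) : A) : A) : Qbar) := by
    push_cast
    rw [← h3, mul_assoc, h4, mul_one]
  rw [h5]
  exact Subtype.coe_prop _

theorem GB_abs {K F k Ω : Type} [Field K] [Field F] [Algebra K F] [Field k] [Field Ω] [Algebra k Ω]
    (L : IntermediateField k Ω) (D : RedData K F k L) {y u₁ u₂ : F} {c : K} (hc : c ∈ D.A)
    (hy : y ∈ D.O) (m1 : u₁ ∈ D.O) (m2 : u₂ ∈ D.O) (he : y * u₂ = algebraMap K F c * u₁) :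
    ((D.rd y : L) : Ω) * ((D.rd u₂ : L) : Ω) = algebraMap k Ω (D.ra c) * ((D.rd u₁ : L) : Ω) := by
  have a1 : D.rd y * D.rd u₂ = algebraMap k L (D.ra c) * D.rd u₁ := by
    rw [← RedData.rd_mul hy m2, he, RedData.rd_mul (RedData.algebraMap_mem hc) m1,
      RedData.rd_algebraMap hc]
  exact congrArg (fun z : L => (z : Ω)) a1

theorem gaussBridge : Stmt_GaussBridge := by
  intro N _ A L D hG y
  by_cases hy : y = 0
  · subst hy
    refine ⟨⟨fun _ => GInt.zero, fun _ => D.O.zero_mem⟩, ?_⟩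
    rw [RedData.rd_zero]
    exact gred_zero.symm
  obtain ⟨c, y₁, y₂, θ₁, θ₂, hc, h1, h2, he, hy1, hy2⟩ := ES.Mid.INT.intRep' N A y hy
  have hu1 := hG.rd y₁ (by rw [h1]; exact (qExpHom N θ₁).2)
  have hu2 := hG.rd y₂ (by rw [h2]; exact (qExpHom N θ₂).2)
  have e1 : (⟨ModularCurve.coeffMap A.subtype y₁, by rw [h1]; exact (qExpHom N θ₁).2⟩ : FF N)
      = qExpHom N θ₁ := Subtype.ext h1
  have e2 : (⟨ModularCurve.coeffMap A.subtype y₂, by rw [h2]; exact (qExpHom N θ₂).2⟩ : FF N)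
      = qExpHom N θ₂ := Subtype.ext h2
  rw [e1] at hu1
  rw [e2] at hu2
  generalize qExpHom N θ₁ = u₁ at *
  generalize qExpHom N θ₂ = u₂ at *
  obtain ⟨m1, r1⟩ := hu1
  obtain ⟨m2, r2⟩ := hu2
  have n1 : D.rd u₁ ≠ 0 := by
    intro h0
    rw [h0] at r1
    exact hy1 r1.symm
  have n2 : D.rd u₂ ≠ 0 := by
    intro h0
    rw [h0] at r2
    exact hy2 r2.symm
  have i1 : u₁⁻¹ ∈ D.O := RedData.inv_mem_of_rd_ne_zero n1
  have i2 : u₂⁻¹ ∈ D.O := RedData.inv_mem_of_rd_ne_zero n2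
  have z1 : u₁ ≠ 0 := by
    rintro rfl
    exact n1 RedData.rd_zero
  have z2 : u₂ ≠ 0 := by
    rintro rfl
    exact n2 RedData.rd_zero
  -- series versions
  have heS : (y : LaurentSeries Qbar) * inc A y₂
      = algebraMap Qbar (LaurentSeries Qbar) c * inc A y₁ := by
    have := congrArg Subtype.val he
    show (y : LaurentSeries Qbar) * ModularCurve.coeffMap A.subtype y₂ =
      algebraMap Qbar (LaurentSeries Qbar) c * ModularCurve.coeffMap A.subtype y₁
    rw [h1, h2]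
    exact this
  have g1 : GInt A (inc A y₁) := gint_inc y₁
  have g2 : GInt A (inc A y₂) := gint_inc y₂
  have gr1 : gred A (inc A y₁) = rho (resA A) y₁ := gred_inc y₁
  have gr2 : gred A (inc A y₂) = rho (resA A) y₂ := gred_inc y₂
  have s1 : inc A y₁ ≠ 0 := INJ.Inst.Gauss.inc_ne_zero_of_rho hy1
  have s2 : inc A y₂ ≠ 0 := INJ.Inst.Gauss.inc_ne_zero_of_rho hy2
  have hO : y ∈ D.O ↔ c ∈ A := by
    have hAc : c ∈ A ↔ algebraMap Qbar (FF N) c ∈ D.O := by rw [D.mem_iff c, hG.hA]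
    rw [hAc]
    constructor
    · intro hyO
      have : algebraMap Qbar (FF N) c = y * u₂ * u₁⁻¹ := by
        rw [he, mul_assoc, mul_inv_cancel₀ z1, mul_one]
      rw [this]
      exact mul_mem (mul_mem hyO m2) i1
    · intro hcO
      have : y = algebraMap Qbar (FF N) c * u₁ * u₂⁻¹ := by
        rw [← he, mul_assoc, mul_inv_cancel₀ z2, mul_one]
      rw [this]
      exact mul_mem (mul_mem hcO m1) i2
  have hGI : GInt A (y : LaurentSeries Qbar) ↔ c ∈ A := by
    constructor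
    · intro hyG
      apply GB_const_mem
      have : algebraMap Qbar (LaurentSeries Qbar) c
          = (y : LaurentSeries Qbar) * inc A y₂ * (inc A y₁)⁻¹ := by
        rw [heS, mul_assoc, mul_inv_cancel₀ s1, mul_one]
      rw [this]
      exact (hyG.mul g2).mul (g1.inv (by rw [gr1]; exact hy1))
    · intro hcA
      have : (y : LaurentSeries Qbar)
          = algebraMap Qbar (LaurentSeries Qbar) c * inc A y₁ * (inc A y₂)⁻¹ := by
        rw [← heS, mul_assoc, mul_inv_cancel₀ s2, mul_one]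
      rw [this]
      exact ((gint_const hcA).mul g1).mul (g2.inv (by rw [gr2]; exact hy2))
  refine ⟨hO.trans hGI.symm, ?_⟩
  by_cases hcA : c ∈ A
  · have hyO := hO.2 hcA
    have hyG := hGI.2 hcA
    have hcD : c ∈ D.A := by rw [hG.hA]; exact hcA
    have a3 := GB_abs L D hcD hyO m1 m2 he
    have a2 : gred A (y : LaurentSeries Qbar) * rho (resA A) y₂
        = algebraMap (kA A) (LaurentSeries (kA A)) (resA A ⟨c, hcA⟩) * rho (resA A) y₁ := by
      rw [← gr2, ← gred_mul hyG g2, heS, gred_mul (gint_const hcA) g1, gred_const hcA, gr1]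
    rw [r1, r2, hG.ra c hcA] at a3
    exact mul_right_cancel₀ hy2 (a3.trans a2.symm)
  · rw [RedData.rd_of_not_mem (fun h => hcA (hO.1 h)), gred_of_not_gint (fun h => hcA (hGI.1 h))]
    rfl

end Fermat.Agent.S36.Gre

end
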