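import Fermat.Agent.S36.Gre.Interface
import Fermat.Agent.S36.Val.GVApi

/-!
# S36 / Gre, task GRE-D2 : orthogonality for the Gauss valuation (`Stmt_GaussOrth`)
-/

set_option autoImplicit false
set_option synthInstance.maxHeartbeats 400000

noncomputable section

namespace Fermat.Agent.S36.Gre

open Fermat.Agent
open Fermat.Agent.S24 (Qbar FF)
open Fermat.Agent.INJ.Inst (kA)
open Fermat.Agent.S36.Base Fermat.Agent.S36.Val
open Fermat.Agent.CAR (NR.IsUnif)

/-- the abstract orthogonality statement. -/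
theorem D2_orth_abs {L : Type*} [Field L] (W : ValuationSubring L) (p ρ : L) (e : ℕ)
    (hp : p ≠ 0) (hpe : W.valuation p ^ e = W.valuation ρ) (hρ : W.valuation ρ < 1)
    (w : Fin e → L) (hw : ∀ l, w l ≠ 0 → ∃ k : ℤ, W.valuation (w l) = W.valuation ρ ^ k)
    (hsum : ∑ l : Fin e, p ^ (l : ℕ) * w l ∈ W) :
    (∀ l, w l ∈ W) ∧ ∀ l : Fin e, (l : ℕ) ≠ 0 → W.valuation (p ^ (l : ℕ) * w l) < 1 := by
  classical
  set v := W.valuation with hv
  set a := v p with ha
  have ha0 : 0 < a := zero_lt_iff.2 ((map_ne_zero v).2 hp)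
  have ha1 : a < 1 := by
    by_contra h
    have h1 : 1 ≤ a := not_lt.1 h
    have h2 : 1 ≤ a ^ e := one_le_pow₀ h1
    rw [hpe] at h2
    exact absurd hρ (not_lt.2 h2)
  have hterm : ∀ (l : Fin e) (k : ℤ), v (w l) = v ρ ^ k →
      v (p ^ (l : ℕ) * w l) = a ^ ((l : ℤ) + e * k) := by
    intro l k hk
    rw [map_mul, map_pow, hk, ← hpe, zpow_add₀ ha0.ne', zpow_mul, zpow_natCast, zpow_natCast]
  have hinj : Function.Injective (fun n : ℤ => a ^ n) := zpow_right_injective₀ ha0 ha1.ne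
  -- distinct values
  have hA : ∀ i j : Fin e, i ≠ j → w i ≠ 0 → w j ≠ 0 →
      v (p ^ (i : ℕ) * w i) ≠ v (p ^ (j : ℕ) * w j) := by
    intro i j hij hi hj h
    obtain ⟨ki, hki⟩ := hw i hi
    obtain ⟨kj, hkj⟩ := hw j hj
    rw [hterm i ki hki, hterm j kj hkj] at h
    have h1 : (i : ℤ) + e * ki = (j : ℤ) + e * kj := hinj h
    apply hij
    apply Fin.ext
    have h2 : ((i : ℕ) : ℤ) % (e : ℤ) = ((j : ℕ) : ℤ) % (e : ℤ) := by
      have h3 := congrArg (fun n : ℤ => n % (e : ℤ)) h1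
      simpa [Int.add_mul_emod_self_left] using h3
    have hi' : ((i : ℕ) : ℤ) % (e : ℤ) = (i : ℕ) :=
      Int.emod_eq_of_lt (by positivity) (by exact_mod_cast i.2)
    have hj' : ((j : ℕ) : ℤ) % (e : ℤ) = (j : ℕ) :=
      Int.emod_eq_of_lt (by positivity) (by exact_mod_cast j.2)
    rw [hi', hj'] at h2
    exact_mod_cast h2
  -- all the terms are integral
  have hB : ∀ l : Fin e, v (p ^ (l : ℕ) * w l) ≤ 1 := by
    intro l
    obtain ⟨j, -, hj⟩ := Finset.exists_max_image Finset.univ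
      (fun l : Fin e => v (p ^ (l : ℕ) * w l)) ⟨l, Finset.mem_univ l⟩
    by_cases hj0 : w j = 0
    · have h1 := hj l (Finset.mem_univ l)
      simp only [hj0, mul_zero, map_zero] at h1
      exact h1.trans zero_le_one
    · have hpj : p ^ (j : ℕ) * w j ≠ 0 := mul_ne_zero (pow_ne_zero _ hp) hj0
      have h1 : v (∑ l : Fin e, p ^ (l : ℕ) * w l) = v (p ^ (j : ℕ) * w j) := by
        apply Valuation.map_sum_eq_of_lt v (Finset.mem_univ j)
        intro i hi
        have hij : i ≠ j := by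
          intro h
          rw [Finset.mem_sdiff, Finset.mem_singleton] at hi
          exact hi.2 h
        refine lt_of_le_of_ne (hj i (Finset.mem_univ i)) ?_
        by_cases hi0 : w i = 0
        · rw [hi0, mul_zero, map_zero]
          exact ((map_ne_zero v).2 hpj).symm
        · exact hA i j hij hi0 hj0
      have h2 : v (∑ l : Fin e, p ^ (l : ℕ) * w l) ≤ 1 := (W.valuation_le_one_iff _).2 hsum
      rw [h1] at h2
      exact (hj l (Finset.mem_univ l)).trans h2
  have hρ0 : 0 < v ρ := by rw [← hpe]; exact pow_pos ha0 e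
  have hC : ∀ (l : Fin e) (k : ℤ), v (w l) = v ρ ^ k → 0 ≤ k := by
    intro l k hk
    have h1 := hB l
    rw [hterm l k hk, zpow_le_one_iff_right_of_lt_one₀ ha0 ha1] at h1
    by_contra hk0
    have h2 : k ≤ -1 := by omega
    have h3 : (e : ℤ) * k ≤ (e : ℤ) * (-1) := mul_le_mul_of_nonneg_left h2 (by positivity)
    have h4 : ((l : ℕ) : ℤ) < e := by exact_mod_cast l.2
    linarith
  constructor
  · intro l
    by_cases hl : w l = 0
    · rw [hl]; exact W.zero_mem
    · obtain ⟨k, hk⟩ := hw l hl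
      rw [← W.valuation_le_one_iff, ← hv, hk, zpow_le_one_iff_right_of_lt_one₀ hρ0 hρ]
      exact hC l k hk
  · intro l hl0
    by_cases hl : w l = 0
    · rw [hl, mul_zero, map_zero]; exact zero_lt_one
    · obtain ⟨k, hk⟩ := hw l hl
      rw [hterm l k hk, zpow_lt_one_iff_right_of_lt_one₀ ha0 ha1]
      have h1 := hC l k hk
      have h2 : 0 ≤ (e : ℤ) * k := mul_nonneg (by positivity) h1
      have h3 : 0 < ((l : ℕ) : ℤ) := by
        have : 0 < (l : ℕ) := Nat.pos_of_ne_zero hl0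
        exact_mod_cast this
      linarith

/-- the Gauss valuation ring of `FF N`. -/
def D2_W (A : ValuationSubring Qbar) (N : ℕ) [NeZero N] : ValuationSubring (FF N) :=
  gv (A := A) (incl N).toRingHom (fun y => sat_incl A N y)

theorem D2_mem_W (A : ValuationSubring Qbar) (N : ℕ) [NeZero N] (y : FF N) :
    y ∈ D2_W A N ↔ GInt A (y : LaurentSeries Qbar) := Iff.rfl

theorem D2_W_lt_one (A : ValuationSubring Qbar) (N : ℕ) [NeZero N] (y : FF N) :
    (D2_W A N).valuation y < 1 ↔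
      GInt A (y : LaurentSeries Qbar) ∧ gred A (y : LaurentSeries Qbar) = 0 :=
  gv_lt_one_iff _ _ y

theorem D2_W_eq_one (A : ValuationSubring Qbar) (N : ℕ) [NeZero N] (y : FF N) :
    (D2_W A N).valuation y = 1 ↔
      GInt A (y : LaurentSeries Qbar) ∧ gred A (y : LaurentSeries Qbar) ≠ 0 :=
  gv_eq_one_iff _ _ y

theorem D2_OA_lt_one (A : ValuationSubring Qbar) (N : ℕ) [NeZero N] (x : FE A N) :
    (OA A N).valuation x < 1 ↔ (D2_W A N).valuation (emb A N x) < 1 := by
  rw [D2_W_lt_one]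
  exact gv_lt_one_iff _ _ x

theorem D2_OA_eq_one (A : ValuationSubring Qbar) (N : ℕ) [NeZero N] (x : FE A N) :
    (OA A N).valuation x = 1 ↔ (D2_W A N).valuation (emb A N x) = 1 := by
  rw [D2_W_eq_one]
  exact gv_eq_one_iff _ _ x

theorem D2_mem_OA (A : ValuationSubring Qbar) (N : ℕ) [NeZero N] (x : FE A N) :
    x ∈ OA A N ↔ emb A N x ∈ D2_W A N := Iff.rfl

theorem D2_const_mem (A : ValuationSubring Qbar) (N : ℕ) [NeZero N] {c : Qbar} (hc : c ∈ A) :
    algebraMap Qbar (FF N) c ∈ D2_W A N := by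
  rw [D2_mem_W]
  exact gint_const hc

/-- **(D2)**. -/
theorem gaussOrth (h : Val.Stmt_UnifR) (_hG : Val.Stmt_GVApi) : Stmt_GaussOrth := by
  intro r A hr hA N _ e ϖ' hR z hint
  obtain ⟨he, hϖ0, h1, h2⟩ := id hR
  have hU := (h A r hr hA).1 N
  have hr0 : (r : Qbar) ≠ 0 := Nat.cast_ne_zero.2 hr.ne_zero
  have hrF : (r : FE A N) ≠ 0 := hU.ne_zero
  have hembr : emb A N (r : FE A N) = (r : FF N) := map_natCast _ _
  have hcr : algebraMap Qbar (FF N) (r : Qbar) = (r : FF N) := map_natCast _ _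
  have hrL : (r : FF N) ≠ 0 := by
    rw [← hembr]; exact (map_ne_zero _).2 hrF
  have hp : algebraMap Qbar (FF N) ϖ' ≠ 0 := (map_ne_zero _).2 hϖ0
  have hρ : (D2_W A N).valuation (r : FF N) < 1 := by
    rw [← hembr, ← D2_OA_lt_one]; exact hU.lt_one
  have hpe : (D2_W A N).valuation (algebraMap Qbar (FF N) ϖ') ^ e
      = (D2_W A N).valuation (r : FF N) := by
    have hv0 : (D2_W A N).valuation (r : FF N) ≠ 0 := (map_ne_zero _).2 hrL
    have hv1 : (D2_W A N).valuation (algebraMap Qbar (FF N) ϖ') ^ e ≠ 0 :=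
      pow_ne_zero _ ((map_ne_zero _).2 hp)
    have e1 := ((D2_W A N).valuation_le_one_iff _).2 (D2_const_mem A N h1)
    have e2 := ((D2_W A N).valuation_le_one_iff _).2 (D2_const_mem A N h2)
    rw [map_div₀, map_pow, hcr, map_div₀, map_pow] at e1 e2
    apply le_antisymm
    · exact (div_le_one₀ (zero_lt_iff.2 hv0)).1 e1
    · exact (div_le_one₀ (zero_lt_iff.2 hv1)).1 e2
  have hw : ∀ l, emb A N (z l) ≠ 0 → ∃ k : ℤ, (D2_W A N).valuation (emb A N (z l))
      = (D2_W A N).valuation (r : FF N) ^ k := by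
    intro l hl
    have hzl : z l ≠ 0 := fun h0 => hl (by rw [h0, map_zero])
    obtain ⟨k, hk⟩ := hU.exists_zpow (z l) hzl
    refine ⟨k, ?_⟩
    have hv0 : (OA A N).valuation (r : FE A N) ≠ 0 := (map_ne_zero _).2 hrF
    have e1 : (OA A N).valuation (z l * (r : FE A N) ^ (-k)) = 1 := by
      rw [map_mul, map_zpow₀, hk, ← zpow_add₀ hv0, add_neg_cancel, zpow_zero]
    rw [D2_OA_eq_one, map_mul, map_zpow₀, hembr, map_mul, map_zpow₀, zpow_neg] at e1
    exact (mul_inv_eq_one₀ (zpow_ne_zero _ ((map_ne_zero _).2 hrL))).1 e1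
  have hcomb : comb A N ϖ' z
      = ∑ l : Fin e, algebraMap Qbar (FF N) ϖ' ^ (l : ℕ) * emb A N (z l) := by
    unfold comb
    exact Finset.sum_congr rfl (fun l _ => by rw [map_pow])
  have hsum : ∑ l : Fin e, algebraMap Qbar (FF N) ϖ' ^ (l : ℕ) * emb A N (z l) ∈ D2_W A N := by
    rw [D2_mem_W, ← hcomb]
    exact hint
  obtain ⟨r1, r2⟩ := D2_orth_abs (D2_W A N) (algebraMap Qbar (FF N) ϖ') (r : FF N) e hp hpe hρ
    (fun l => emb A N (z l)) hw hsum
  refine ⟨fun l => (D2_mem_OA A N (z l)).2 (r1 l), ?_⟩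
  have hsplit : comb A N ϖ' z = emb A N (z ⟨0, he⟩)
      + ∑ l ∈ Finset.univ.erase (⟨0, he⟩ : Fin e),
          algebraMap Qbar (FF N) ϖ' ^ (l : ℕ) * emb A N (z l) := by
    rw [hcomb, ← Finset.add_sum_erase Finset.univ _ (Finset.mem_univ (⟨0, he⟩ : Fin e))]
    simp only [pow_zero, one_mul]
  have hrest : (D2_W A N).valuation (∑ l ∈ Finset.univ.erase (⟨0, he⟩ : Fin e),
      algebraMap Qbar (FF N) ϖ' ^ (l : ℕ) * emb A N (z l)) < 1 := by
    apply Valuation.map_sum_lt _ one_ne_zero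
    intro l hl
    apply r2 l
    intro h0
    exact (Finset.mem_erase.1 hl).1 (Fin.ext h0)
  rw [D2_W_lt_one] at hrest
  have h0int : GInt A ((emb A N (z ⟨0, he⟩) : FF N) : LaurentSeries Qbar) := r1 ⟨0, he⟩
  rw [hsplit]
  have hcoe : ∀ x y : FF N, ((x + y : FF N) : LaurentSeries Qbar)
      = (x : LaurentSeries Qbar) + (y : LaurentSeries Qbar) := fun _ _ => rfl
  rw [hcoe, gred_add h0int hrest.1, hrest.2, add_zero]
  rfl

end Fermat.Agent.S36.Gre

end
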