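import Fermat.Agent.S36.Gre.Interface
import Fermat.Agent.S36.Base.Descent
import Fermat.Agent.INJ.P4

/-!
# S36 / Gre / D4 : integrality over `ℚ̄[t]` descends to `E[t]`; degrees

An `E`-linear functional `l : ℚ̄ → E` is applied coefficientwise (to series and to polynomials).
-/

set_option autoImplicit false
set_option synthInstance.maxHeartbeats 400000

noncomputable section

namespace Fermat.Agent.S36.Gre

open Fermat.Agent
open Fermat.Agent.S24 (Qbar FF)
open Fermat.Agent.INJ (IsInt)
open Fermat.Agent.S36.Base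
open Polynomial

variable (A : ValuationSubring Qbar)

/-- apply an `E`-linear functional to the coefficients of a polynomial. -/
def ID_lmap (l : Qbar →ₗ[IE A] IE A) (c : Qbar[X]) : (IE A)[X] :=
  c.sum fun m a => monomial m (l a)

theorem ID_lmap_add (l : Qbar →ₗ[IE A] IE A) (c c' : Qbar[X]) :
    ID_lmap A l (c + c') = ID_lmap A l c + ID_lmap A l c' :=
  Polynomial.sum_add_index _ _ _ (by simp) (by simp)

theorem ID_lmap_monomial (l : Qbar →ₗ[IE A] IE A) (m : ℕ) (a : Qbar) :
    ID_lmap A l (monomial m a) = monomial m (l a) :=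
  Polynomial.sum_monomial_index _ _ (by simp)

theorem ID_lmap_coeff (l : Qbar →ₗ[IE A] IE A) (c : Qbar[X]) (m : ℕ) :
    (ID_lmap A l c).coeff m = l (c.coeff m) := by
  induction c using Polynomial.induction_on' with
  | add p q hp hq => rw [ID_lmap_add, coeff_add, coeff_add, map_add, hp, hq]
  | monomial n a =>
    rw [ID_lmap_monomial, coeff_monomial, coeff_monomial]
    split_ifs <;> simp

theorem ID_key (l : Qbar →ₗ[IE A] IE A) (T V : Base.LE A) (c : Qbar[X]) (n : ℤ) :
    l ((aeval (cmE A T) c * cmE A V).coeff n) = (aeval T (ID_lmap A l c) * V).coeff n := by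
  induction c using Polynomial.induction_on' with
  | add p q hp hq =>
    rw [map_add, add_mul, HahnSeries.coeff_add, map_add, hp, hq, ID_lmap_add, map_add, add_mul,
      HahnSeries.coeff_add]
  | monomial m a =>
    rw [aeval_monomial, ID_lmap_monomial, aeval_monomial, mul_assoc, mul_assoc, ← map_pow,
      ← map_mul, Desc_coeff_const_mul, Desc_coeff_const_mul, cmE_coeff, mul_comm a,
      ← Algebra.smul_def, map_smul, smul_eq_mul, mul_comm]

theorem ID_proj (l : Qbar →ₗ[IE A] IE A) {ι : Type} (s : Finset ι) (T : Base.LE A) (c : ι → Qbar[X])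
    (V : ι → Base.LE A) (h : ∑ i ∈ s, aeval (cmE A T) (c i) * cmE A (V i) = 0) :
    ∑ i ∈ s, aeval T (ID_lmap A l (c i)) * V i = 0 := by
  ext n
  rw [HahnSeries.coeff_sum, HahnSeries.coeff_zero]
  have h1 := congrArg (fun y : LaurentSeries Qbar => l (y.coeff n)) h
  simp only [HahnSeries.coeff_sum, map_sum, HahnSeries.coeff_zero, map_zero, ID_key] at h1
  exact h1

theorem ID_coe_aeval (N : ℕ) (t : FE A N) (G : (IE A)[X]) :
    ((aeval t G : FE A N) : Base.LE A) = aeval (t : Base.LE A) G :=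
  (aeval_algHom_apply (FE A N).val t G).symm

theorem ID_coe_aeval' (N : ℕ) (t : FF N) (G : Qbar[X]) :
    ((aeval t G : FF N) : LaurentSeries Qbar) = aeval (t : LaurentSeries Qbar) G :=
  (aeval_algHom_apply (ModularCurve.modularFunctionFieldBar N).val t G).symm

/-- the projection of a `ℚ̄[t]`-linear relation. -/
theorem ID_proj' (l : Qbar →ₗ[IE A] IE A) (N : ℕ) {ι : Type} (s : Finset ι) (t : FE A N)
    (c : ι → Qbar[X]) (v : ι → FE A N)
    (h : ∑ i ∈ s, aeval (emb A N t) (c i) * emb A N (v i) = 0) :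
    ∑ i ∈ s, aeval t (ID_lmap A l (c i)) * v i = 0 := by
  apply Subtype.ext
  have e1 : ((∑ i ∈ s, aeval t (ID_lmap A l (c i)) * v i : FE A N) : Base.LE A)
      = ∑ i ∈ s, aeval (t : Base.LE A) (ID_lmap A l (c i)) * (v i : Base.LE A) := by
    rw [AddSubmonoidClass.coe_finsetSum]
    refine Finset.sum_congr rfl fun i _ => ?_
    rw [← ID_coe_aeval]
    rfl
  rw [e1]
  refine ID_proj A l s (t : Base.LE A) c (fun i => (v i : Base.LE A)) ?_
  have h1 := congrArg (fun y : FF N => (y : LaurentSeries Qbar)) h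
  have e2 : ((∑ i ∈ s, aeval (emb A N t) (c i) * emb A N (v i) : FF N) : LaurentSeries Qbar)
      = ∑ i ∈ s, aeval (cmE A (t : Base.LE A)) (c i) * cmE A (v i : Base.LE A) := by
    rw [AddSubmonoidClass.coe_finsetSum]
    refine Finset.sum_congr rfl fun i _ => ?_
    rw [← coe_emb, ← coe_emb, ← ID_coe_aeval']
    rfl
  rw [← e2]
  exact h1

theorem degDesc : Stmt_DegDesc := by
  intro A N _ t n v ⟨c, hc, hrel⟩
  -- a nonzero coefficient
  obtain ⟨i₀, hi₀⟩ : ∃ i, c i ≠ 0 := by
    by_contra hcon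
    push Not at hcon
    exact hc (funext hcon)
  obtain ⟨m₀, hm₀⟩ : ∃ m, (c i₀).coeff m ≠ 0 := by
    by_contra hcon
    push Not at hcon
    exact hi₀ (Polynomial.ext hcon)
  obtain ⟨l, hl⟩ : ∃ l : Qbar →ₗ[IE A] IE A, l ((c i₀).coeff m₀) ≠ 0 := by
    by_contra hcon
    push Not at hcon
    exact hm₀ ((Module.forall_dual_apply_eq_zero_iff (IE A) _).1 hcon)
  refine ⟨fun i => ID_lmap A l (c i), ?_, ID_proj' A l N Finset.univ t c v hrel⟩
  intro h0
  have h1 := congrArg (fun P : (IE A)[X] => P.coeff m₀) (congrFun h0 i₀)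
  simp only [ID_lmap_coeff, Pi.zero_apply, coeff_zero] at h1
  exact hl h1

theorem intDesc : Stmt_IntDesc := by
  intro A N _ t x hx
  obtain ⟨l, hl⟩ := Desc_exists_retraction A
  have hl1 : l 1 = 1 := by simpa using hl 1
  obtain ⟨p, hp, hpx⟩ := hx
  -- the coefficients are polynomials in `t`
  have hco : ∀ e : ℕ, ∃ P : Qbar[X], aeval (emb A N t) P = ((p.coeff e : _) : FF N) := by
    intro e
    have h1 : ∀ y ∈ Algebra.adjoin Qbar ({emb A N t} : Set (FF N)),
        ∃ P : Qbar[X], aeval (emb A N t) P = y := by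
      intro y hy
      rw [Algebra.adjoin_singleton_eq_range_aeval] at hy
      exact hy
    exact h1 _ (p.coeff e).2
  choose P hP using hco
  set d := p.natDegree with hd
  -- the relation
  have hrel : ∑ e ∈ Finset.range (d + 1),
      aeval (emb A N t) (if e = d then 1 else P e) * emb A N (x ^ e) = 0 := by
    rw [eval₂_eq_sum_range] at hpx
    rw [← hpx]
    refine Finset.sum_congr rfl fun e _ => ?_
    rw [map_pow]
    congr 1
    split_ifs with he
    · rw [he, hd, hp.coeff_natDegree, map_one, map_one]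
    · rw [hP]
      rfl
  have h2 := ID_proj' A l N _ t _ _ hrel
  rw [Finset.sum_range_succ, if_pos rfl] at h2
  have h3 : ID_lmap A l 1 = 1 := by
    rw [← monomial_zero_one, ID_lmap_monomial, hl1, monomial_zero_one]
  rw [h3, map_one, one_mul] at h2
  refine INJ.P4_isIntegral_of_relation x d
    (fun i => ⟨aeval t (ID_lmap A l (P i)), by
      rw [Algebra.adjoin_singleton_eq_range_aeval]; exact ⟨_, rfl⟩⟩) ?_
  rw [add_comm, ← h2]
  congr 1
  rw [Finset.sum_range]
  refine Finset.sum_congr rfl fun i _ => ?_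
  rw [if_neg (ne_of_lt i.2)]
  rfl

end Fermat.Agent.S36.Gre

end
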