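import Fermat.Agent.S36.Gre.Interface

/-!
# S36 / Gre / GRE-D6 : the descent, assembly (`Stmt_ResLift`)
-/

set_option autoImplicit false

noncomputable section

namespace Fermat.Agent.S36.Gre

open Fermat.Agent
open Fermat.Agent.S24 (Qbar FF)
open Fermat.Agent.INJ (IsInt)
open Fermat.Agent.S36.Base Fermat.Agent.S36.Val

/-- regrouping of a double sum, abstract form. -/
theorem ResLift_regroup {E Kb F Fb : Type*} [CommRing E] [CommRing Kb] [CommRing F] [CommRing Fb]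
    (φ : F →+* Fb) (κ : Kb →+* Fb) (ε : E →+* F) (j : E →+* Kb)
    (hc : ∀ c, φ (ε c) = κ (j c)) {n e : ℕ} (a : Fin n → Fin e → E) (ϖ : Kb) (z' : Fin n → F) :
    ∑ i, κ (∑ l : Fin e, j (a i l) * ϖ ^ (l : ℕ)) * φ (z' i) =
      ∑ l : Fin e, κ (ϖ ^ (l : ℕ)) * φ (∑ i, ε (a i l) * z' i) := by
  simp only [map_sum, map_mul, Finset.sum_mul, Finset.mul_sum, hc]
  rw [Finset.sum_comm]
  refine Finset.sum_congr rfl fun l _ => Finset.sum_congr rfl fun i _ => ?_
  ring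

theorem resLift (h1 : Stmt_TotRam) (h2 : Stmt_Conj) (h3 : Stmt_GaussOrth) (h4 : Stmt_VdmInt)
    (h5 : Stmt_IntDesc) (h6 : Base.Stmt_SpanE) : Stmt_ResLift := by
  intro r A hr hA N _ y hy
  obtain ⟨n, c, z', hyz⟩ := h6 A N y
  obtain ⟨e, ϖ', hroot, hc⟩ := h1 r A hr hA n c
  choose a ha using hc
  let z : Fin e → FE A N := fun l => ∑ i, algebraMap (IE A) (FE A N) (a i l) * z' i
  have hcomb : y = comb A N ϖ' z := by
    rw [hyz]
    have h := ResLift_regroup (emb A N) (algebraMap Qbar (FF N)) (algebraMap (IE A) (FE A N))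
      (algebraMap (IE A) Qbar) (emb_algebraMap A N) a ϖ' z'
    refine Eq.trans (Finset.sum_congr rfl fun i _ => ?_) h
    rw [ha i]
  rw [hcomb] at hy
  obtain ⟨hz, hred⟩ := h3 r A hr hA N e ϖ' hroot z hy
  refine ⟨z ⟨0, hroot.1⟩, hz _, ?_, ?_⟩
  · rw [hcomb, hred]
  · intro t ht
    obtain ⟨σ, hσ, hinj⟩ := h2 r A hr hA e ϖ' hroot
    rw [hcomb] at ht
    exact h5 A N t _ (h4 A N e ϖ' σ hσ hinj t z ht _)

end Fermat.Agent.S36.Gre

end
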