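import Fermat.Agent.S36.Gre.Interface
import Fermat.Agent.S36.Base.Mu

/-!
# S36 / Gre : (D1b) finitely many elements of `ℚ̄` lie in `⊕_{l<e} E ϖ'^l`.
-/

set_option autoImplicit false
set_option synthInstance.maxHeartbeats 400000
set_option linter.style.haveILetI false

noncomputable section

namespace Fermat.Agent.S36.Gre

open Fermat.Agent
open Fermat.Agent.S24 (Qbar)
open Fermat.Agent.ES.Mid (GQ)
open Fermat.Agent.S36.Base
open Polynomial

/-! ### abstract lemmas -/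

/-- an element of a subring `A` stable under a group `I` of automorphisms is integral over the
fixed points of `I` in `A`. -/
theorem TotRam_orbit {k R Ω : Type*} [Field k] [Field Ω] [Algebra k Ω] [CommRing R] (f : R →+* Ω)
    (I : Subgroup (Ω ≃ₐ[k] Ω)) (A : Subring Ω) (hA : ∀ σ ∈ I, ∀ a ∈ A, σ a ∈ A)
    (hf : ∀ y ∈ A, (∀ σ ∈ I, σ y = y) → y ∈ Set.range f) (x : Ω) (hx : x ∈ A)
    (hxi : IsIntegral k x) : f.IsIntegralElem x := by
  classical
  have hfin : {v : Ω | ∃ σ ∈ I, σ x = v}.Finite := by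
    refine Set.Finite.subset ((minpoly k x).rootSet_finite Ω) ?_
    rintro _ ⟨σ, -, rfl⟩
    rw [mem_rootSet]
    exact ⟨minpoly.ne_zero hxi, by rw [aeval_algHom_apply, minpoly.aeval, map_zero]⟩
  have hmemS : ∀ v, v ∈ hfin.toFinset ↔ ∃ σ ∈ I, σ x = v := fun v => hfin.mem_toFinset
  have hmonic : (∏ s ∈ hfin.toFinset, (X - C s)).Monic :=
    monic_prod_of_monic _ _ fun s _ => monic_X_sub_C s
  have hroot : (∏ s ∈ hfin.toFinset, (X - C s)).eval x = 0 := by
    rw [eval_prod]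
    exact Finset.prod_eq_zero ((hmemS x).2 ⟨1, I.one_mem, rfl⟩) (by simp)
  have hinv : ∀ σ ∈ I, (∏ s ∈ hfin.toFinset, (X - C s)).map ((σ : Ω ≃+* Ω) : Ω →+* Ω)
      = ∏ s ∈ hfin.toFinset, (X - C s) := by
    intro σ hσ
    rw [Polynomial.map_prod]
    simp only [Polynomial.map_sub, map_X, map_C]
    refine Finset.prod_bij (fun s _ => σ s) ?_ ?_ ?_ ?_
    · intro s hs
      obtain ⟨τ, hτ, rfl⟩ := (hmemS s).1 hs
      exact (hmemS _).2 ⟨σ * τ, I.mul_mem hσ hτ, rfl⟩
    · intro s _ s' _ h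
      exact σ.injective h
    · intro s hs
      obtain ⟨τ, hτ, rfl⟩ := (hmemS s).1 hs
      refine ⟨(σ⁻¹ * τ) x, (hmemS _).2 ⟨σ⁻¹ * τ, I.mul_mem (I.inv_mem hσ) hτ, rfl⟩, ?_⟩
      show (σ * (σ⁻¹ * τ)) x = τ x
      rw [mul_inv_cancel_left]
    · intro s _
      rfl
  have hcoeffA : ∀ n, (∏ s ∈ hfin.toFinset, (X - C s)).coeff n ∈ A := by
    have h1 : (∏ s ∈ hfin.toFinset, (X - C s)) ∈ lifts A.subtype := by
      refine prod_mem fun s hs => ?_
      obtain ⟨τ, hτ, rfl⟩ := (hmemS s).1 hs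
      rw [mem_lifts]
      exact ⟨X - C ⟨τ x, hA τ hτ x hx⟩, by simp⟩
    intro n
    obtain ⟨y, hy⟩ := (lifts_iff_coeff_lifts _).1 h1 n
    rw [← hy]
    exact y.2
  have hlift : (∏ s ∈ hfin.toFinset, (X - C s)) ∈ lifts f := by
    rw [lifts_iff_coeff_lifts]
    intro n
    refine hf _ (hcoeffA n) fun σ hσ => ?_
    have := congrArg (fun p => coeff p n) (hinv σ hσ)
    simp only [coeff_map] at this
    exact this
  obtain ⟨q, hq, -, hqm⟩ := lifts_and_natDegree_eq_and_monic hlift hmonic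
  exact ⟨q, hqm, by rw [eval₂_eq_eval_map, hq, hroot]⟩

/-- valuation rings are integrally closed. -/
theorem TotRam_closed {R Ω : Type*} [CommRing R] [Field Ω] (f : R →+* Ω) (A : ValuationSubring Ω)
    (hf : ∀ a, f a ∈ A) {x : Ω} (hx : f.IsIntegralElem x) : x ∈ A := by
  obtain ⟨p, hp, h⟩ := hx
  have h1 : IsIntegral A x := by
    refine ⟨p.map (f.codRestrict A.toSubring hf), hp.map _, ?_⟩
    rw [eval₂_map]
    exact h
  obtain ⟨y, rfl⟩ := IsIntegrallyClosed.isIntegral_iff.1 h1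
  exact y.2

theorem TotRam_mem_nonunits_iff {L : Type*} [Field L] (V : ValuationSubring L) (y : L) :
    y ∈ V.nonunits ↔ y = 0 ∨ y⁻¹ ∉ V := by
  rw [V.mem_nonunits_iff]
  rcases eq_or_ne y 0 with rfl | hy
  · simp
  · have h0 : 0 < V.valuation y := zero_lt_iff.2 ((V.valuation).ne_zero_iff.2 hy)
    rw [← V.valuation_le_one_iff, map_inv₀, inv_le_one₀ h0, not_le]
    simp [hy]

/-- the abstract form of (D1b). -/
theorem TotRam_abs (h1 : Stmt_TotRamAbs) (R K Ω : Type) [CommRing R] [IsDomain R]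
    [IsDiscreteValuationRing R] [Field K] [CharZero K] [Algebra R K] [IsFractionRing R K] [Field Ω]
    [Algebra K Ω] (A : ValuationSubring Ω) (ϖ : R) (hϖ : Irreducible ϖ)
    (hint : ∀ x : Ω, x ∈ A ↔ ((algebraMap K Ω).comp (algebraMap R K)).IsIntegralElem x)
    (hres : ∀ x ∈ A, ∃ a : R, x - algebraMap K Ω (algebraMap R K a) ∈ A.nonunits)
    (n : ℕ) (c : Fin n → Ω) (hc : ∀ i, IsIntegral K (c i)) :
    ∃ (e : ℕ) (ϖ' : Ω), 0 < e ∧ ϖ' ≠ 0 ∧ ϖ' ^ e / algebraMap K Ω (algebraMap R K ϖ) ∈ A ∧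
      algebraMap K Ω (algebraMap R K ϖ) / ϖ' ^ e ∈ A ∧
      ∀ i, ∃ a : Fin e → K, c i = ∑ l, algebraMap K Ω (a l) * ϖ' ^ (l : ℕ) := by
  let L := IntermediateField.adjoin K (Set.range c)
  letI : Algebra R L := ((algebraMap K L).comp (algebraMap R K)).toAlgebra
  haveI : IsScalarTower R K L := IsScalarTower.of_algebraMap_eq fun _ => rfl
  haveI : FiniteDimensional K L := IntermediateField.finiteDimensional_adjoin (by
    rintro _ ⟨i, rfl⟩
    exact hc i)
  let V : ValuationSubring L := A.comap (algebraMap L Ω)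
  have hV1 : ∀ x : L, x ∈ V ↔ IsIntegral R x := by
    intro x
    have e1 : x ∈ V ↔ algebraMap L Ω x ∈ A := Iff.rfl
    rw [e1, hint]
    constructor
    · rintro ⟨p, hp, h⟩
      refine ⟨p, hp, (algebraMap L Ω).injective ?_⟩
      rw [map_zero, hom_eval₂]
      exact h
    · rintro ⟨p, hp, h⟩
      refine ⟨p, hp, ?_⟩
      have := congrArg (algebraMap L Ω) h
      rw [hom_eval₂, map_zero] at this
      exact this
  have hV2 : ∀ x ∈ V, ∃ a : R, V.valuation (x - algebraMap R L a) < 1 := by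
    intro x hx
    obtain ⟨a, ha⟩ := hres (algebraMap L Ω x) hx
    refine ⟨a, ?_⟩
    rw [← V.mem_nonunits_iff, TotRam_mem_nonunits_iff]
    rw [TotRam_mem_nonunits_iff] at ha
    have e2 : algebraMap L Ω x - algebraMap K Ω (algebraMap R K a)
        = algebraMap L Ω (x - algebraMap R L a) := by
      rw [map_sub]
      rfl
    rw [e2] at ha
    rcases ha with ha | ha
    · exact Or.inl ((map_eq_zero _).1 ha)
    · refine Or.inr fun h => ha ?_
      rw [← map_inv₀]
      exact h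
  obtain ⟨ϖ', h0, hval, hspan⟩ := h1 R K L ϖ V hϖ hV1 hV2
  have hb0 : algebraMap R L ϖ ≠ 0 := by
    have h2 : algebraMap R K ϖ ≠ 0 := by
      rw [Ne, map_eq_zero_iff _ (IsFractionRing.injective R K)]
      exact hϖ.ne_zero
    exact (_root_.map_ne_zero (algebraMap K L)).2 h2
  have ha0 : ϖ' ^ Module.finrank K L ≠ 0 := pow_ne_zero _ h0
  have hvb : V.valuation (algebraMap R L ϖ) ≠ 0 := (V.valuation).ne_zero_iff.2 hb0
  refine ⟨Module.finrank K L, algebraMap L Ω ϖ', Module.finrank_pos, (_root_.map_ne_zero _).2 h0, ?_, ?_,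
    ?_⟩
  · have h3 : ϖ' ^ Module.finrank K L / algebraMap R L ϖ ∈ V := by
      rw [← V.valuation_le_one_iff, map_div₀, hval, div_self hvb]
    have h4 : algebraMap L Ω (ϖ' ^ Module.finrank K L / algebraMap R L ϖ) ∈ A := h3
    rw [map_div₀, map_pow] at h4
    exact h4
  · have h3 : algebraMap R L ϖ / ϖ' ^ Module.finrank K L ∈ V := by
      rw [← V.valuation_le_one_iff, map_div₀, hval, div_self hvb]
    have h4 : algebraMap L Ω (algebraMap R L ϖ / ϖ' ^ Module.finrank K L) ∈ A := h3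
    rw [map_div₀, map_pow] at h4
    exact h4
  · intro i
    obtain ⟨a, ha⟩ := hspan ⟨c i, IntermediateField.subset_adjoin K _ ⟨i, rfl⟩⟩
    refine ⟨a, ?_⟩
    have := congrArg (algebraMap L Ω) ha
    rw [map_sum] at this
    simp only [map_mul, map_pow] at this
    exact this

/-! ### the case of `ℚ̄` -/

theorem TotRam_int (A : ValuationSubring Qbar) (x : Qbar) :
    x ∈ A ↔ ((algebraMap (IE A) Qbar).comp (algebraMap (AE A) (IE A))).IsIntegralElem x := by
  constructor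
  · intro hx
    refine TotRam_orbit (k := ℚ) _ (A.inertiaSubgroupIn ℚ) A.toSubring ?_ ?_ x hx ?_
    · intro σ hσ a ha
      have h1 := A.nonunits_subset (Mu_sub_mem_nonunits hσ a ha)
      have h2 := A.add_mem _ _ h1 ha
      rwa [sub_add_cancel] at h2
    · intro y hy hfix
      exact Mu_exists_val hy hfix
    · haveI : Algebra.IsAlgebraic ℚ Qbar := AlgebraicClosure.isAlgebraic ℚ
      exact (Algebra.IsAlgebraic.isAlgebraic x).isIntegral
  · intro hx
    exact TotRam_closed _ A (fun a => AE.mem A a) hx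

theorem totRam (h1 : Stmt_TotRamAbs) (h2 : Base.Stmt_DVR) (h3 : Base.Stmt_Res) : Stmt_TotRam := by
  intro r A hr hA n c
  obtain ⟨hdvr, hirr⟩ := h2 r A hr hA
  haveI := hdvr
  obtain ⟨e, ϖ', he, h0, ha, hb, hspan⟩ := TotRam_abs h1 (AE A) (IE A) Qbar A ((r : ℕ) : AE A) hirr
    (TotRam_int A) (by
      intro x hx
      obtain ⟨b, hb⟩ := h3 r A hr hA ⟨x, hx⟩
      refine ⟨b, ?_⟩
      rw [← ValuationSubring.coe_mem_nonunits_iff] at hb
      exact hb) n c (by
      intro i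
      haveI : Algebra.IsAlgebraic ℚ Qbar := AlgebraicClosure.isAlgebraic ℚ
      exact ((Algebra.IsAlgebraic.isAlgebraic (R := ℚ) (c i)).isIntegral).tower_top)
  rw [map_natCast, map_natCast] at ha hb
  exact ⟨e, ϖ', ⟨he, h0, ha, hb⟩, hspan⟩

end Fermat.Agent.S36.Gre

end
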