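import Fermat.Agent.S36.Gre.Interface

/-!
# S36 / Gre, package D1a : totally ramified power basis (abstract, Mathlib only)
-/

set_option autoImplicit false
set_option linter.unusedSectionVars false

noncomputable section

namespace Fermat.Agent.S36.Gre

namespace TRA

variable {R K L : Type} [CommRing R] [IsDomain R] [IsDiscreteValuationRing R] [Field K]
  [Algebra R K] [IsFractionRing R K] [Field L] [Algebra K L] [Algebra R L] [IsScalarTower R K L]
  {ϖ : R} {V : ValuationSubring L}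

theorem val_le_one (hV : ∀ x : L, x ∈ V ↔ IsIntegral R x) (a : R) :
    V.valuation (algebraMap R L a) ≤ 1 :=
  (V.valuation_le_one_iff _).mpr ((hV _).mpr isIntegral_algebraMap)

theorem val_unit (hV : ∀ x : L, x ∈ V ↔ IsIntegral R x) (u : Rˣ) :
    V.valuation (algebraMap R L (u : R)) = 1 := by
  have h1 := val_le_one hV (u : R)
  have h2 := val_le_one hV ((u⁻¹ : Rˣ) : R)
  have h3 : V.valuation (algebraMap R L (u : R)) * V.valuation (algebraMap R L ((u⁻¹ : Rˣ) : R)) = 1 := by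
    rw [← map_mul, ← map_mul, Units.mul_inv, map_one, map_one]
  refine le_antisymm h1 ?_
  rw [← h3]
  exact mul_le_of_le_one_right' h2

include K in
theorem algebraMap_ne_zero {a : R} (ha : a ≠ 0) : algebraMap R L a ≠ 0 := by
  rw [IsScalarTower.algebraMap_apply R K L]
  exact (map_ne_zero _).mpr ((map_ne_zero_iff _ (IsFractionRing.injective R K)).mpr ha)

include K in
theorem val_pi_lt_one (hV : ∀ x : L, x ∈ V ↔ IsIntegral R x) (hϖ : Irreducible ϖ) :
    V.valuation (algebraMap R L ϖ) < 1 := by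
  refine lt_of_le_of_ne (val_le_one hV ϖ) fun h1 => ?_
  have h2 : (algebraMap R L ϖ)⁻¹ ∈ V := by
    rw [← V.valuation_le_one_iff, map_inv₀, h1, inv_one]
  have h3 : IsIntegral R (algebraMap K L (algebraMap R K ϖ)⁻¹) := by
    rw [map_inv₀, ← IsScalarTower.algebraMap_apply]
    exact (hV _).mp h2
  rw [isIntegral_algebraMap_iff (algebraMap K L).injective, IsIntegrallyClosed.isIntegral_iff] at h3
  obtain ⟨y, hy⟩ := h3
  apply hϖ.not_isUnit
  refine IsUnit.of_mul_eq_one y ?_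
  apply IsFractionRing.injective R K
  rw [map_mul, hy, map_one, mul_inv_cancel₀]
  exact (map_ne_zero_iff _ (IsFractionRing.injective R K)).mpr hϖ.ne_zero

/-- the value of a nonzero element of `K` is a power of the value of `ϖ`. -/
theorem val_K (hV : ∀ x : L, x ∈ V ↔ IsIntegral R x) (hϖ : Irreducible ϖ) {a : K} (ha : a ≠ 0) :
    ∃ i j : ℕ, V.valuation (algebraMap K L a) * V.valuation (algebraMap R L ϖ) ^ j =
      V.valuation (algebraMap R L ϖ) ^ i := by
  obtain ⟨r, s, hs, rfl⟩ := IsFractionRing.div_surjective (A := R) a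
  have hs0 : s ≠ 0 := nonZeroDivisors.ne_zero hs
  have hsK : algebraMap R K s ≠ 0 := (map_ne_zero_iff _ (IsFractionRing.injective R K)).mpr hs0
  have hr0 : r ≠ 0 := by
    rintro rfl
    apply ha
    rw [map_zero, zero_div]
  obtain ⟨i, u, rfl⟩ := IsDiscreteValuationRing.eq_unit_mul_pow_irreducible hr0 hϖ
  obtain ⟨j, u', rfl⟩ := IsDiscreteValuationRing.eq_unit_mul_pow_irreducible hs0 hϖ
  refine ⟨i, j, ?_⟩
  have h1 : V.valuation (algebraMap R L ((u' : R) * ϖ ^ j)) = V.valuation (algebraMap R L ϖ) ^ j := by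
    rw [map_mul, map_mul, val_unit hV, one_mul, map_pow, map_pow]
  have h2 : V.valuation (algebraMap R L ((u : R) * ϖ ^ i)) = V.valuation (algebraMap R L ϖ) ^ i := by
    rw [map_mul, map_mul, val_unit hV, one_mul, map_pow, map_pow]
  rw [← h1, ← h2, ← map_mul, IsScalarTower.algebraMap_apply R K L, IsScalarTower.algebraMap_apply R K L,
    ← map_mul, div_mul_cancel₀ _ hsK]

/-- the values of `a ϖ' ^ l`, `a ∈ Kˣ`, `l < e`, determine `l`. -/
theorem val_inj (hV : ∀ x : L, x ∈ V ↔ IsIntegral R x) (hϖ : Irreducible ϖ) {ϖ' : L} {e : ℕ}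
    (h0 : ϖ' ≠ 0) (h1 : V.valuation ϖ' < 1)
    (he : V.valuation ϖ' ^ e = V.valuation (algebraMap R L ϖ)) {a a' : K} (ha : a ≠ 0)
    (ha' : a' ≠ 0) {l l' : ℕ} (hl : l < e) (hl' : l' < e)
    (h : V.valuation (algebraMap K L a * ϖ' ^ l) = V.valuation (algebraMap K L a' * ϖ' ^ l')) :
    l = l' := by
  obtain ⟨i, j, hij⟩ := val_K hV hϖ ha
  obtain ⟨i', j', hij'⟩ := val_K hV hϖ ha'
  rw [← he, ← pow_mul, ← pow_mul] at hij hij'
  rw [map_mul, map_mul, map_pow, map_pow] at h
  set γ := V.valuation ϖ' with hγ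
  have hγ0 : 0 < γ := zero_lt_iff.mpr ((V.valuation.ne_zero_iff).mpr h0)
  have h2 : γ ^ (e * i + l + e * j') = γ ^ (e * i' + l' + e * j) := by
    rw [pow_add, pow_add, pow_add, pow_add, ← hij, ← hij']
    calc V.valuation (algebraMap K L a) * γ ^ (e * j) * γ ^ l * γ ^ (e * j')
        = (V.valuation (algebraMap K L a) * γ ^ l) * γ ^ (e * j) * γ ^ (e * j') := by ac_rfl
      _ = (V.valuation (algebraMap K L a') * γ ^ l') * γ ^ (e * j) * γ ^ (e * j') := by rw [h]
      _ = _ := by ac_rfl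
  have h3 : e * i + l + e * j' = e * i' + l' + e * j := pow_right_injective₀ hγ0 h1.ne h2
  have h4 : (l + e * (i + j')) % e = (l' + e * (i' + j)) % e := by
    congr 1
    linarith
  rwa [Nat.add_mul_mod_self_left, Nat.add_mul_mod_self_left, Nat.mod_eq_of_lt hl,
    Nat.mod_eq_of_lt hl'] at h4

/-- the powers `ϖ' ^ l`, `l < e`, are linearly independent over `K`. -/
theorem linInd (hV : ∀ x : L, x ∈ V ↔ IsIntegral R x) (hϖ : Irreducible ϖ) {ϖ' : L} {e : ℕ}
    (h0 : ϖ' ≠ 0) (h1 : V.valuation ϖ' < 1)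
    (he : V.valuation ϖ' ^ e = V.valuation (algebraMap R L ϖ)) :
    LinearIndependent K (fun l : Fin e => ϖ' ^ (l : ℕ)) := by
  classical
  rw [Fintype.linearIndependent_iff]
  intro a hsum
  by_contra hne
  push Not at hne
  obtain ⟨l₁, hl₁⟩ := hne
  let T : Finset (Fin e) := Finset.univ.filter fun l => a l ≠ 0
  have hT : T.Nonempty := ⟨l₁, by simp [T, hl₁]⟩
  obtain ⟨l₀, hl₀T, hmax⟩ := Finset.exists_max_image T
    (fun l => V.valuation (algebraMap K L (a l) * ϖ' ^ (l : ℕ))) hT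
  have hl₀ : a l₀ ≠ 0 := by simpa [T] using hl₀T
  have hterm0 : algebraMap K L (a l₀) * ϖ' ^ (l₀ : ℕ) ≠ 0 :=
    mul_ne_zero ((map_ne_zero _).mpr hl₀) (pow_ne_zero _ h0)
  have hlt : V.valuation (∑ l ∈ Finset.univ.erase l₀, algebraMap K L (a l) * ϖ' ^ (l : ℕ)) <
      V.valuation (algebraMap K L (a l₀) * ϖ' ^ (l₀ : ℕ)) := by
    refine V.valuation.map_sum_lt ((V.valuation.ne_zero_iff).mpr hterm0) fun l hl => ?_
    have hll : l ≠ l₀ := (Finset.mem_erase.mp hl).1
    by_cases hal : a l = 0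
    · rw [hal, map_zero, zero_mul, map_zero]
      exact zero_lt_iff.mpr ((V.valuation.ne_zero_iff).mpr hterm0)
    · refine lt_of_le_of_ne (hmax l (by simp [T, hal])) fun heq => hll ?_
      exact Fin.ext (val_inj hV hϖ h0 h1 he hal hl₀ l.2 l₀.2 heq)
  have hs : ∑ l ∈ Finset.univ.erase l₀, algebraMap K L (a l) * ϖ' ^ (l : ℕ) =
      -(algebraMap K L (a l₀) * ϖ' ^ (l₀ : ℕ)) := by
    rw [eq_neg_iff_add_eq_zero, Finset.sum_erase_add _ _ (Finset.mem_univ l₀), ← hsum]
    exact Finset.sum_congr rfl fun l _ => (Algebra.smul_def _ _).symm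
  rw [hs, Valuation.map_neg] at hlt
  exact lt_irrefl _ hlt

/-- `V` is a discrete valuation ring: existence of a uniformiser. -/
theorem exists_unif [CharZero K] [FiniteDimensional K L] (hV : ∀ x : L, x ∈ V ↔ IsIntegral R x)
    (hϖ : Irreducible ϖ) :
    ∃ (ϖ' : L) (e : ℕ), ϖ' ≠ 0 ∧ V.valuation ϖ' < 1 ∧
      V.valuation ϖ' ^ e = V.valuation (algebraMap R L ϖ) ∧
      ∀ z : L, V.valuation z < 1 → ∃ z' ∈ V, z = ϖ' * z' := by
  let φ : integralClosure R L ≃+* V :=
    { toFun := fun x => ⟨x.1, (hV x.1).mpr x.2⟩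
      invFun := fun x => ⟨x.1, (hV x.1).mp x.2⟩
      left_inv := fun _ => rfl
      right_inv := fun _ => rfl
      map_mul' := fun _ _ => rfl
      map_add' := fun _ _ => rfl }
  have hN : IsNoetherianRing (integralClosure R L) := IsIntegralClosure.isNoetherianRing R K L _
  have hNV : IsNoetherianRing V := isNoetherianRing_of_ringEquiv _ φ
  have hmem : algebraMap R L ϖ ∈ V := (hV _).mpr isIntegral_algebraMap
  have hne : (⟨algebraMap R L ϖ, hmem⟩ : V) ≠ 0 := fun h =>
    algebraMap_ne_zero (K := K) hϖ.ne_zero (congrArg Subtype.val h)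
  have hnf : ¬ IsField V := by
    intro hf
    obtain ⟨b, hb⟩ := hf.mul_inv_cancel hne
    have hu : IsUnit (⟨algebraMap R L ϖ, hmem⟩ : V) := IsUnit.of_mul_eq_one b hb
    rw [V.valuation_eq_one_iff] at hu
    exact (val_pi_lt_one (K := K) hV hϖ).ne hu
  have hDVR : IsDiscreteValuationRing V :=
    ((IsDiscreteValuationRing.TFAE V hnf).out 0 1).mpr (inferInstance : ValuationRing V)
  obtain ⟨p, hp⟩ := IsDiscreteValuationRing.exists_irreducible V
  obtain ⟨e, u, hu⟩ := IsDiscreteValuationRing.associated_pow_irreducible hne hp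
  refine ⟨p, e, fun h => hp.ne_zero (Subtype.ext h), ?_, ?_, ?_⟩
  · exact (V.valuation_lt_one_iff p).mp ((IsLocalRing.mem_maximalIdeal _).mpr hp.not_isUnit)
  · have h1 : V.valuation ((u : V) : L) = 1 := (V.valuation_eq_one_iff _).mp u.isUnit
    have h2 : algebraMap R L ϖ * ((u : V) : L) = (p : L) ^ e := congrArg Subtype.val hu
    rw [← map_pow, ← h2, map_mul, h1, mul_one]
  · intro z hz
    have hzV : z ∈ V := (V.valuation_le_one_iff z).mp hz.le
    have hzm : (⟨z, hzV⟩ : V) ∈ IsLocalRing.maximalIdeal V := (V.valuation_lt_one_iff _).mpr hz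
    rw [(IsDiscreteValuationRing.irreducible_iff_uniformizer p).mp hp,
      Ideal.mem_span_singleton'] at hzm
    obtain ⟨z', hz'⟩ := hzm
    refine ⟨z', z'.2, ?_⟩
    rw [mul_comm]
    exact (congrArg Subtype.val hz').symm

theorem approx (hres : ∀ x ∈ V, ∃ a : R, V.valuation (x - algebraMap R L a) < 1) {ϖ' : L} {e : ℕ}
    (hdiv : ∀ z : L, V.valuation z < 1 → ∃ z' ∈ V, z = ϖ' * z') (j : ℕ) (hj : j ≤ e) (x : L)
    (hx : x ∈ V) :
    ∃ y ∈ Submodule.span R (Set.range fun l : Fin e => ϖ' ^ (l : ℕ)), ∃ z ∈ V,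
      x = y + ϖ' ^ j * z := by
  induction j with
  | zero => exact ⟨0, zero_mem _, x, hx, by simp⟩
  | succ j ih =>
    obtain ⟨y, hy, z, hz, rfl⟩ := ih (by omega)
    obtain ⟨a, ha⟩ := hres z hz
    obtain ⟨z', hz', hzz⟩ := hdiv _ ha
    refine ⟨y + a • ϖ' ^ j, add_mem hy (Submodule.smul_mem _ _
      (Submodule.subset_span ⟨⟨j, by omega⟩, rfl⟩)), z', hz', ?_⟩
    have : z = algebraMap R L a + ϖ' * z' := by rw [← hzz]; ring
    rw [this, Algebra.smul_def, pow_succ]
    ring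

/-- Nakayama: the powers `ϖ' ^ l`, `l < e`, span `V` over `R`. -/
theorem span_V [CharZero K] [FiniteDimensional K L] (hV : ∀ x : L, x ∈ V ↔ IsIntegral R x)
    (hϖ : Irreducible ϖ) (hres : ∀ x ∈ V, ∃ a : R, V.valuation (x - algebraMap R L a) < 1)
    {ϖ' : L} {e : ℕ} (he : V.valuation ϖ' ^ e = V.valuation (algebraMap R L ϖ))
    (hdiv : ∀ z : L, V.valuation z < 1 → ∃ z' ∈ V, z = ϖ' * z') :
    ∀ x ∈ V, x ∈ Submodule.span R (Set.range fun l : Fin e => ϖ' ^ (l : ℕ)) := by
  have hfin : Module.Finite R (integralClosure R L) := IsIntegralClosure.finite R K L _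
  have hFG : (Subalgebra.toSubmodule (integralClosure R L)).FG := Module.Finite.iff_fg.mp hfin
  have hϖL : algebraMap R L ϖ ≠ 0 := algebraMap_ne_zero (K := K) hϖ.ne_zero
  have hle := Submodule.le_of_le_smul_of_le_jacobson_bot (I := IsLocalRing.maximalIdeal R)
    (N := Submodule.span R (Set.range fun l : Fin e => ϖ' ^ (l : ℕ))) hFG
    (by rw [IsLocalRing.jacobson_eq_maximalIdeal ⊥ bot_ne_top]) (by
      intro x hx
      obtain ⟨y, hy, z, hz, rfl⟩ := approx hres hdiv e le_rfl x ((hV x).mpr hx)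
      refine Submodule.add_mem_sup hy ?_
      have hu : ϖ' ^ e / algebraMap R L ϖ ∈ V := by
        rw [← V.valuation_le_one_iff, map_div₀, map_pow, he,
          div_self ((V.valuation.ne_zero_iff).mpr hϖL)]
      have h2 : ϖ' ^ e * z = ϖ • (ϖ' ^ e / algebraMap R L ϖ * z) := by
        rw [Algebra.smul_def]
        field_simp
      rw [h2]
      exact Submodule.smul_mem_smul ((IsLocalRing.mem_maximalIdeal _).mpr hϖ.not_isUnit)
        ((hV _).mp (mul_mem hu hz)))
  intro x hx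
  exact hle ((hV x).mp hx)

end TRA

theorem totRamAbs : Stmt_TotRamAbs := by
  intro R K L _ _ _ _ _ _ _ _ _ _ _ _ ϖ V hϖ hV hres
  obtain ⟨ϖ', e, h0, h1, he, hdiv⟩ := TRA.exists_unif (K := K) hV hϖ
  have hli := TRA.linInd (K := K) hV hϖ h0 h1 he
  have hspV := TRA.span_V (K := K) hV hϖ hres he hdiv
  have hsp : ∀ x : L, ∃ a : Fin e → K, x = ∑ l, algebraMap K L (a l) * ϖ' ^ (l : ℕ) := by
    intro x
    have halg : IsAlgebraic R x :=
      (IsFractionRing.isAlgebraic_iff R K L).mpr (Algebra.IsAlgebraic.isAlgebraic x)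
    obtain ⟨r, hr0, hr⟩ := halg.exists_integral_multiple
    obtain ⟨c, hc⟩ := (Submodule.mem_span_range_iff_exists_fun R).mp (hspV _ ((hV _).mpr hr))
    have hrL : algebraMap R L r ≠ 0 := TRA.algebraMap_ne_zero (K := K) hr0
    refine ⟨fun l => algebraMap R K (c l) / algebraMap R K r, ?_⟩
    have h2 : x = (algebraMap R L r)⁻¹ * (r • x) := by
      rw [Algebra.smul_def, inv_mul_cancel_left₀ hrL]
    rw [h2, ← hc, Finset.mul_sum]
    refine Finset.sum_congr rfl fun l _ => ?_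
    rw [Algebra.smul_def, map_div₀, ← IsScalarTower.algebraMap_apply, ← IsScalarTower.algebraMap_apply]
    field_simp
  have hfr : Module.finrank K L = e := by
    have hsp' : ⊤ ≤ Submodule.span K (Set.range fun l : Fin e => ϖ' ^ (l : ℕ)) := by
      intro x _
      obtain ⟨a, rfl⟩ := hsp x
      refine Submodule.sum_mem _ fun l _ => ?_
      rw [← Algebra.smul_def]
      exact Submodule.smul_mem _ _ (Submodule.subset_span ⟨l, rfl⟩)
    rw [Module.finrank_eq_card_basis (Module.Basis.mk hli hsp'), Fintype.card_fin]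
  rw [hfr]
  exact ⟨ϖ', h0, by rw [map_pow, he], hsp⟩

end Fermat.Agent.S36.Gre

end
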