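import Fermat.Agent.S36.Gre.Interface

/-!
# S36 / Gre, package D3 (helper53): Vandermonde, the components of an integral element are integral.
-/

set_option autoImplicit false
set_option synthInstance.maxHeartbeats 400000

noncomputable section

namespace Fermat.Agent.S36.Gre

open Fermat.Agent
open Fermat.Agent.S24 (Qbar FF)
open Fermat.Agent.ES.Mid (GQ gal)
open Fermat.Agent.INJ (IsInt)
open Fermat.Agent.S36.Base

/-- abstract Vandermonde inversion. -/
theorem VI_abs {K F : Type*} [Field K] [Field F] [Algebra K F] (R : Subalgebra K F) {e : ℕ}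
    (v : Fin e → K) (hv : Function.Injective v) (x Y : Fin e → F)
    (hY : ∀ a, Y a = ∑ l : Fin e, algebraMap K F (v a ^ (l : ℕ)) * x l)
    (hint : ∀ a, IsIntegral R (Y a)) (l : Fin e) : IsIntegral R (x l) := by
  classical
  let V : Matrix (Fin e) (Fin e) K := Matrix.vandermonde v
  have hdet : V.det ≠ 0 := Matrix.det_vandermonde_ne_zero_iff.mpr hv
  have hunit : IsUnit V.det := isUnit_iff_ne_zero.mpr hdet
  have hWV : V⁻¹ * V = 1 := Matrix.nonsing_inv_mul V hunit
  have key : x l = ∑ a : Fin e, algebraMap K F (V⁻¹ l a) * Y a := by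
    have h1 : ∀ a, algebraMap K F (V⁻¹ l a) * Y a
        = ∑ m : Fin e, algebraMap K F (V⁻¹ l a * V a m) * x m := by
      intro a
      rw [hY a, Finset.mul_sum]
      refine Finset.sum_congr rfl fun m _ => ?_
      rw [map_mul, mul_assoc]
      rfl
    simp_rw [h1]
    rw [Finset.sum_comm]
    have h2 : ∀ m : Fin e, ∑ a : Fin e, algebraMap K F (V⁻¹ l a * V a m) * x m
        = algebraMap K F ((1 : Matrix (Fin e) (Fin e) K) l m) * x m := by
      intro m
      rw [← Finset.sum_mul, ← map_sum, ← hWV, Matrix.mul_apply]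
    simp_rw [h2]
    rw [Finset.sum_eq_single l]
    · rw [Matrix.one_apply_eq, map_one, one_mul]
    · intro m _ hm
      rw [Matrix.one_apply_ne (Ne.symm hm), map_zero, zero_mul]
    · intro h
      exact absurd (Finset.mem_univ l) h
  rw [key]
  refine IsIntegral.sum _ fun a _ => IsIntegral.mul ?_ (hint a)
  have : algebraMap K F (V⁻¹ l a) = algebraMap R F (algebraMap K R (V⁻¹ l a)) := rfl
  rw [this]
  exact isIntegral_algebraMap

/-- transport of integrality along a ring automorphism preserving the base. -/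
theorem VI_map {K F : Type*} [Field K] [Field F] [Algebra K F] (R : Subalgebra K F)
    (g : F →+* F) (hg : ∀ x ∈ R, g x ∈ R) {y : F} (hy : IsIntegral R y) : IsIntegral R (g y) := by
  let φ : R →+* R := (g.comp R.val.toRingHom).codRestrict R.toSubring (fun x => hg x.1 x.2)
  exact IsIntegral.map_of_comp_eq φ g (by ext x; rfl) hy

theorem VI_gal_algebraMap (N : ℕ) (σ : GQ) (c : Qbar) :
    gal N σ (algebraMap Qbar (FF N) c) = algebraMap Qbar (FF N) (σ c) :=
  ModularCurve.arithmeticRingAut_algebraMap (ModularCurve.modularFunctionFieldFull N) σ c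

/-- **(D3)** -/
theorem vdmInt : Stmt_VdmInt := by
  intro A N _ e ϖ' σ hσ hinj t z hy l
  refine VI_abs (Algebra.adjoin Qbar {emb A N t}) (fun a => σ a ϖ') hinj
    (fun l => emb A N (z l)) (fun a => gal N (σ a) (comb A N ϖ' z)) ?_ ?_ l
  · intro a
    rw [comb, map_sum]
    refine Finset.sum_congr rfl fun m _ => ?_
    rw [map_mul, VI_gal_algebraMap, gal_emb A N _ (hσ a), map_pow]
  · intro a
    refine VI_map (Algebra.adjoin Qbar {emb A N t}) (gal N (σ a)).toRingHom ?_ hy
    intro x hx
    induction hx using Algebra.adjoin_induction with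
    | mem x hx =>
      rw [Set.mem_singleton_iff] at hx
      rw [hx]
      show gal N (σ a) (emb A N t) ∈ _
      rw [gal_emb A N _ (hσ a)]
      exact Algebra.subset_adjoin (Set.mem_singleton _)
    | algebraMap c =>
      show gal N (σ a) (algebraMap Qbar (FF N) c) ∈ _
      rw [VI_gal_algebraMap]
      exact Subalgebra.algebraMap_mem _ _
    | add x y _ _ hx hy => rw [map_add]; exact add_mem hx hy
    | mul x y _ _ hx hy => rw [map_mul]; exact mul_mem hx hy

end Fermat.Agent.S36.Gre

end
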