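import Fermat.Agent.S36.Val.Interface2
import Fermat.Agent.S36.Loc.Interface
import Fermat.Agent.S36.HM.Interface

/-!
# S36 / Gre : good reduction at level `M` (`r ∤ M`) over `A_E`  (architect helper84)

`INJ.all_Normal` (+ `HM`: `Chart D t`, `Branch D t`) is good reduction over the NON-noetherian valuation
ring `A` of `ℚ̄`.  Here it is descended to the discrete valuation ring `A_E`, `E = ℚ̄^I`.

Key point: every finite extension `E'/E` inside `ℚ̄` is totally ramified (`A ∩ E'` is the integral closure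
of `A_E`, a valuation ring with the same residue field), so `E' = ⊕_{l<e} E ϖ'^l`, `v(ϖ') = v(r)/e`, and
the Gauss valuations of the terms of `y = ∑ ϖ'^l z_l` (`z_l ∈ F_E`) are pairwise distinct.

OUTPUT : `Stmt_GoodCoord` (input of `Val.Stmt_Main2`), `Stmt_NorGre` (input of `Loc.Stmt_Iso`).
-/

set_option autoImplicit false
set_option synthInstance.maxHeartbeats 400000

noncomputable section

namespace Fermat.Agent.S36.Gre

open Fermat.Agent
open Fermat.Agent.S24 (Qbar FF)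
open Fermat.Agent.ES.Mid (GQ gal)
open Fermat.Agent.INJ (RedData IsInt)
open Fermat.Agent.INJ.Inst (kA IsGauss)
open Fermat.Agent.S36.Base Fermat.Agent.S36.Val
open Fermat.Agent.KL (Chart PolyR cst crd FinOverR)
open Fermat.Agent.CAR (NR.IsUnif)
open Polynomial

/-! ## D : descent from `ℚ̄` to `E` -/

/-- (D1a) abstract, Mathlib only: a finite extension of the fraction field of a DVR in which the integral
closure is a valuation ring with the same residue field is totally ramified, with a power basis. -/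
def Stmt_TotRamAbs : Prop :=
  ∀ (R K L : Type) [CommRing R] [IsDomain R] [IsDiscreteValuationRing R] [Field K] [CharZero K]
    [Algebra R K] [IsFractionRing R K] [Field L] [Algebra K L] [Algebra R L] [IsScalarTower R K L]
    [FiniteDimensional K L] (ϖ : R) (V : ValuationSubring L), Irreducible ϖ →
    (∀ x : L, x ∈ V ↔ IsIntegral R x) →
    (∀ x ∈ V, ∃ a : R, V.valuation (x - algebraMap R L a) < 1) →
    ∃ ϖ' : L, ϖ' ≠ 0 ∧
      V.valuation (ϖ' ^ Module.finrank K L) = V.valuation (algebraMap R L ϖ) ∧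
      ∀ x : L, ∃ a : Fin (Module.finrank K L) → K, x = ∑ l, algebraMap K L (a l) * ϖ' ^ (l : ℕ)

/-- `ϖ' ^ e = r * unit of A`. -/
def IsRootR (A : ValuationSubring Qbar) (r e : ℕ) (ϖ' : Qbar) : Prop :=
  0 < e ∧ ϖ' ≠ 0 ∧ ϖ' ^ e / (r : Qbar) ∈ A ∧ (r : Qbar) / ϖ' ^ e ∈ A

/-- (D1b) finitely many elements of `ℚ̄` lie in `⊕_{l<e} E ϖ'^l`. -/
def Stmt_TotRam : Prop :=
  ∀ (r : ℕ) (A : ValuationSubring Qbar), r.Prime → A.LiesOverPrime r →
    ∀ (n : ℕ) (c : Fin n → Qbar), ∃ (e : ℕ) (ϖ' : Qbar), IsRootR A r e ϖ' ∧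
      ∀ i, ∃ a : Fin e → IE A, c i = ∑ l, algebraMap (IE A) Qbar (a l) * ϖ' ^ (l : ℕ)

/-- (D1c) `ϖ'` has `e` distinct conjugates under inertia. -/
def Stmt_Conj : Prop :=
  ∀ (r : ℕ) (A : ValuationSubring Qbar), r.Prime → A.LiesOverPrime r →
    ∀ (e : ℕ) (ϖ' : Qbar), IsRootR A r e ϖ' →
    ∃ σ : Fin e → GQ, (∀ a, σ a ∈ A.inertiaSubgroupIn ℚ) ∧ Function.Injective (fun a => σ a ϖ')

/-- `∑_l ϖ'^l z_l ∈ FF N`. -/
def comb (A : ValuationSubring Qbar) (N : ℕ) {e : ℕ} (ϖ' : Qbar) (z : Fin e → FE A N) : FF N :=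
  ∑ l : Fin e, algebraMap Qbar (FF N) (ϖ' ^ (l : ℕ)) * emb A N (z l)

/-- (D2) orthogonality for the Gauss valuation. -/
def Stmt_GaussOrth : Prop :=
  ∀ (r : ℕ) (A : ValuationSubring Qbar), r.Prime → A.LiesOverPrime r → ∀ (N : ℕ) [NeZero N]
    (e : ℕ) (ϖ' : Qbar) (h : IsRootR A r e ϖ') (z : Fin e → FE A N),
    GInt A (comb A N ϖ' z : LaurentSeries Qbar) →
    (∀ l, z l ∈ OA A N) ∧
      gred A (comb A N ϖ' z : LaurentSeries Qbar) = gred A (phiA A N (z ⟨0, h.1⟩))

/-- (D3) Vandermonde: the components of an element integral over `ℚ̄[t]` are integral over `ℚ̄[t]`. -/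
def Stmt_VdmInt : Prop :=
  ∀ (A : ValuationSubring Qbar) (N : ℕ) [NeZero N] (e : ℕ) (ϖ' : Qbar) (σ : Fin e → GQ),
    (∀ a, σ a ∈ A.inertiaSubgroupIn ℚ) → Function.Injective (fun a => σ a ϖ') →
    ∀ (t : FE A N) (z : Fin e → FE A N), IsInt Qbar (emb A N t) (comb A N ϖ' z) →
      ∀ l, IsInt Qbar (emb A N t) (emb A N (z l))

/-- (D4) integrality over `ℚ̄[t]` descends to `E[t]`. -/
def Stmt_IntDesc : Prop :=
  ∀ (A : ValuationSubring Qbar) (N : ℕ) [NeZero N] (t x : FE A N),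
    IsInt Qbar (emb A N t) (emb A N x) → IsInt (IE A) t x

/-- (D5) abstract: integral on the generic fibre + integral at all vertical valuation rings
`⟹` integral over `A₀[t]`. -/
def Stmt_IntVert : Prop :=
  ∀ (A₀ K F : Type) [CommRing A₀] [IsDomain A₀] [IsDiscreteValuationRing A₀] [Field K] [Algebra A₀ K]
    [IsFractionRing A₀ K] [Field F] [CharZero F] [Algebra A₀ F] [FaithfulSMul A₀ F] [Algebra K F]
    [IsScalarTower A₀ K F] (ϖ : A₀) (t x : F), Irreducible ϖ → Transcendental A₀ t →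
    FinOverR (PolyR A₀ t) F → (∀ O : ValuationSubring F, IsVert A₀ ϖ t O → x ∈ O) →
    IsInt K t x → IsIntegral (PolyR A₀ t) x

/-- (D6) **the descent**: a Gauss-integral element of `FF N` has the same reduction as an element of
`F_E`, which is integral over `E[t]` if the given one is integral over `ℚ̄[t]`. -/
def Stmt_ResLift : Prop :=
  ∀ (r : ℕ) (A : ValuationSubring Qbar), r.Prime → A.LiesOverPrime r → ∀ (N : ℕ) [NeZero N]
    (y : FF N), GInt A (y : LaurentSeries Qbar) →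
    ∃ z : FE A N, z ∈ OA A N ∧ gred A (phiA A N z) = gred A (y : LaurentSeries Qbar) ∧
      ∀ t : FE A N, IsInt Qbar (emb A N t) y → IsInt (IE A) t z

/-! ## G : good reduction over `A_E` -/

/-- (G0) a Gauss reduction datum is given by `GInt`, `gred`. -/
def Stmt_GaussBridge : Prop :=
  ∀ (N : ℕ) [NeZero N] (A : ValuationSubring Qbar)
    (L : IntermediateField (kA A) (LaurentSeries (kA A))) (D : RedData Qbar (FF N) (kA A) L),
    IsGauss N A L D → ∀ y : FF N, (y ∈ D.O ↔ GInt A (y : LaurentSeries Qbar)) ∧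
      ((D.rd y : L) : LaurentSeries (kA A)) = gred A (y : LaurentSeries Qbar)

/-- (G1a) abstract: `f = n ≥ [L : K]` forces uniqueness of the extension (from `NR.Stmt_FundEq`). -/
def Stmt_Class1 : Prop :=
  ∀ (K L : Type) [Field K] [Field L] [CharZero K] (π : K →+* L) (n : ℕ) (V : ValuationSubring K)
    (W : ValuationSubring L) (ϖ : K) (b : Fin n → L), DegLE π n → NR.IsUnif V ϖ → Over π V W →
    ResIndep π V W b → ∀ W' : ValuationSubring L, Over π V W' → W' = W

/-- (G1b) degrees: `[F_E : E(t)] ≤ [FF N : ℚ̄(t)]`, elementwise (`E[t]`-coefficients). -/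
def Stmt_DegDesc : Prop :=
  ∀ (A : ValuationSubring Qbar) (N : ℕ) [NeZero N] (t : FE A N) (n : ℕ) (v : Fin n → FE A N),
    (∃ c : Fin n → Qbar[X], c ≠ 0 ∧ ∑ i, aeval (emb A N t) (c i) * emb A N (v i) = 0) →
    ∃ c : Fin n → (IE A)[X], c ≠ 0 ∧ ∑ i, aeval t (c i) * v i = 0

/-- `t₀` is the Hauptmodul of level `a`. -/
def IsHM (A : ValuationSubring Qbar) (a : ℕ) {M : ℕ} (t₀ : FE A M) : Prop :=
  (t₀ : Base.LE A) = HM.tq a (IE A)

/-- (G1) **the Gauss ring is the only vertical valuation ring at level `M`**. -/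
def Stmt_GoodCoord : Prop :=
  ∀ (a r M : ℕ) [NeZero M], r.Prime → (a = 4 ∨ a = 9) → a ∣ M → ¬ r ∣ M →
    ∀ A : ValuationSubring Qbar, A.LiesOverPrime r → ∀ t₀ : FE A M, IsHM A a t₀ →
      Transcendental (IE A) t₀ ∧ GoodCoord A r M t₀ ∧ GoodCoord A r M t₀⁻¹

/-- (G2a) abstract: `NorInt` from the lifting property. -/
def Stmt_NorAbs : Prop :=
  ∀ (A₀ F : Type) [CommRing A₀] [IsDomain A₀] [IsDiscreteValuationRing A₀] [Field F] [CharZero F]
    [Algebra A₀ F] [FaithfulSMul A₀ F] (ϖ : A₀) (t : F) (O : ValuationSubring F), Irreducible ϖ →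
    Transcendental A₀ t → FinOverR (PolyR A₀ t) F →
    (∀ z ∈ O, (∃ p : (PolyR A₀ t)[X], p.Monic ∧ O.valuation (aeval z p) < 1) →
      ∃ y : F, IsIntegral (PolyR A₀ t) y ∧ O.valuation (z - y) < 1) →
    ∀ P ∈ (Ideal.span {cst A₀ t ϖ}).minimalPrimes, IsCenV P O → Loc.NorInt F P

/-- the lifting property of the chart with coordinate `x`. -/
def LiftProp (A₀ : Type) {F : Type} [CommRing A₀] [Field F] [Algebra A₀ F] (x : F)
    (O : ValuationSubring F) : Prop :=
  ∀ z ∈ O, (∃ p : (PolyR A₀ x)[X], p.Monic ∧ O.valuation (aeval z p) < 1) →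
    ∃ y : F, IsIntegral (PolyR A₀ x) y ∧ O.valuation (z - y) < 1

/-- (G2b) the lifting property at level `M`, both charts (`INJ.all_Normal` + descent). -/
def Stmt_LiftGre : Prop :=
  ∀ (a r M : ℕ) [NeZero M], r.Prime → (a = 4 ∨ a = 9) → a ∣ M → ¬ r ∣ M →
    ∀ A : ValuationSubring Qbar, A.LiesOverPrime r → ∀ t₀ : FE A M, IsHM A a t₀ →
      LiftProp (AE A) t₀ (OA A M) ∧ LiftProp (AE A) t₀⁻¹ (OA A M)

/-- the vertical primes of the chart with coordinate `x` are normal. -/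
def NorChart (A₀ F : Type) [CommRing A₀] [Field F] [Algebra A₀ F] (ϖ : A₀) (x : F) : Prop :=
  ∀ P ∈ (Ideal.span {cst A₀ x ϖ}).minimalPrimes, Loc.NorInt F P

/-- (G2) **normality of the special fibre at level `M`**, both charts. -/
def Stmt_NorGre : Prop :=
  ∀ (a r M : ℕ) [NeZero M], r.Prime → (a = 4 ∨ a = 9) → a ∣ M → ¬ r ∣ M →
    ∀ A : ValuationSubring Qbar, A.LiesOverPrime r → ∀ t₀ : FE A M, IsHM A a t₀ →
      NorChart (AE A) (FE A M) ((r : ℕ) : AE A) t₀ ∧ NorChart (AE A) (FE A M) ((r : ℕ) : AE A) t₀⁻¹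

end Fermat.Agent.S36.Gre

end
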