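import Fermat.Agent.S36.Gre.Interface
import Fermat.Agent.S36.GRE.Interface
import Fermat.Agent.S36.HM.All
import Fermat.Agent.S36.HM.Mem
import Fermat.Agent.S36.Val.GVApi
import Fermat.Agent.S36.Val.Vert

/-!
# S36 / Gre (G1) : the Hauptmodul over `E`; the Gauss ring is the only vertical valuation ring

* `GC_mem`, `GC_exists` : `t_a ∈ F_E`;
* `GC_emb`, `GC_transc` : its image in `FF M`, transcendence over `E`;
* `GC_good` : `GRE.GoodCoord` (helper5's input) for `t₀` and `t₀⁻¹`;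
* `GC_vert` : the Gauss ring is vertical;
* `goodCoord : GRE.Stmt_GRE → Base.Stmt_DVR → Stmt_GoodCoord`.
-/

set_option autoImplicit false
set_option synthInstance.maxHeartbeats 400000

noncomputable section

namespace Fermat.Agent.S36.Gre

open Fermat.Agent
open Fermat.Agent.S24 (Qbar FF)
open Fermat.Agent.INJ (RedData)
open Fermat.Agent.INJ.Inst (kA IsGauss)
open Fermat.Agent.INJ.Inst.Gauss (rho inc inc_single rho_single)
open Fermat.Agent.S36.Base Fermat.Agent.S36.Val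
open Polynomial

variable {A : ValuationSubring Qbar}

theorem GC_mem (A : ValuationSubring Qbar) {a M : ℕ} [NeZero M] (ha : a = 4 ∨ a = 9) (hd : a ∣ M) :
    HM.tq a (IE A) ∈ FE A M := by
  have h : HM.tq a ℚ ∈ ModularCurve.modularFunctionFieldFull M :=
    HM.tq_mem_full ℚ ha (by rcases ha with rfl | rfl <;> norm_num) hd
  have h2 := ModularCurve.coeffEmb_mem_laurentBaseChange (IE A) h
  rwa [ModularCurve.coeffEmb, HM.coeffMap_tq] at h2

theorem GC_exists (A : ValuationSubring Qbar) {a M : ℕ} [NeZero M] (ha : a = 4 ∨ a = 9)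
    (hd : a ∣ M) : ∃ t₀ : FE A M, IsHM A a t₀ := ⟨⟨_, GC_mem A ha hd⟩, rfl⟩

theorem GC_emb {a M : ℕ} {t₀ : FE A M} (h : IsHM A a t₀) :
    ((emb A M t₀ : FF M) : LaurentSeries Qbar) = HM.tq a Qbar := by
  rw [coe_emb, h]
  exact HM.coeffMap_tq _ a

theorem GC_phiA {a M : ℕ} {t₀ : FE A M} (h : IsHM A a t₀) :
    phiA A M t₀ = inc A (HM.tq a A) := by
  have h1 : phiA A M t₀ = ((emb A M t₀ : FF M) : LaurentSeries Qbar) := rfl
  rw [h1, GC_emb h]
  exact (HM.coeffMap_tq _ a).symm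

theorem GC_transc {a M : ℕ} {t₀ : FE A M} (h : IsHM A a t₀) : Transcendental (IE A) t₀ := by
  have h1 : Transcendental (IE A) (t₀ : Base.LE A) := by
    rw [h]; exact HM.transcendental_tq (IE A) a
  intro halg
  apply h1
  obtain ⟨p, hp, hp0⟩ := halg
  refine ⟨p, hp, ?_⟩
  have h2 := congrArg (algebraMap (FE A M) (Base.LE A)) hp0
  rw [map_zero, ← aeval_algebraMap_apply] at h2
  exact h2

/-- **input of helper5's [GRE]**. -/
theorem GC_good {a r M : ℕ} [NeZero M] (hr : r.Prime) (ha : a = 4 ∨ a = 9) (hd : a ∣ M)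
    (hrM : ¬ r ∣ M) (hA : A.LiesOverPrime r) {t₀ : FE A M} (h : IsHM A a t₀) :
    GRE.GoodCoord A M t₀ ∧ GRE.GoodCoord A M t₀⁻¹ := by
  have : Fact r.Prime := ⟨hr⟩
  constructor
  · intro L D hG
    exact ⟨(HM.all_ChartHM a M r ha hd hrM A hA L D hG _ (GC_emb h)).1,
      (HM.all_BranchHM a M r ha hd hrM A hA L D hG _ (GC_emb h)).1⟩
  · intro L D hG
    rw [map_inv₀]
    exact ⟨(HM.all_ChartHM a M r ha hd hrM A hA L D hG _ (GC_emb h)).2,
      (HM.all_BranchHM a M r ha hd hrM A hA L D hG _ (GC_emb h)).2⟩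

/-- constants. -/
theorem GC_phiA_const (M : ℕ) (c : AE A) :
    phiA A M (algebraMap (AE A) (FE A M) c) = inc A (HahnSeries.single 0 (AE.toA A c)) := by
  rw [inc_single]
  exact cmE_algebraMap A (algebraMap (AE A) (IE A) c)

/-- the series `p(t) ∈ A((q))`. -/
def GC_ev (A : ValuationSubring Qbar) (a : ℕ) (p : (AE A)[X]) : LaurentSeries A :=
  p.eval₂ ((HahnSeries.C : A →+* LaurentSeries A).comp (AE.toA A)) (HM.tq a A)

theorem GC_phiA_aeval {a M : ℕ} {t₀ : FE A M} (h : IsHM A a t₀) (p : (AE A)[X]) :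
    phiA A M (aeval t₀ p) = inc A (GC_ev A a p) := by
  rw [GC_ev, aeval_def, hom_eval₂, hom_eval₂, GC_phiA h]
  congr 1
  exact RingHom.ext fun c => GC_phiA_const M c

theorem GC_rho_ev (a : ℕ) (p : (AE A)[X]) :
    rho (resA A) (GC_ev A a p)
      = aeval (HM.tq a (kA A)) (p.map ((resA A).comp (AE.toA A))) := by
  rw [GC_ev, hom_eval₂, aeval_def, eval₂_map, HM.coeffMap_tq]
  congr 1
  exact RingHom.ext fun c => rho_single (res := resA A) (AE.toA A c)

theorem GC_OA_lt (M : ℕ) [NeZero M] (x : FE A M) :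
    (OA A M).valuation x < 1 ↔ GInt A (phiA A M x) ∧ gred A (phiA A M x) = 0 :=
  gv_lt_one_iff _ _ x

theorem GC_OA_eq (M : ℕ) [NeZero M] (x : FE A M) :
    (OA A M).valuation x = 1 ↔ GInt A (phiA A M x) ∧ gred A (phiA A M x) ≠ 0 :=
  gv_eq_one_iff _ _ x

/-- **the Gauss ring is vertical**. -/
theorem GC_vert (hDVR : Base.Stmt_DVR) {a r M : ℕ} [NeZero M] (hr : r.Prime)
    (hA : A.LiesOverPrime r) {t₀ : FE A M} (h : IsHM A a t₀) :
    IsVert (AE A) ((r : ℕ) : AE A) t₀ (OA A M) := by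
  obtain ⟨hdvr, hirr⟩ := hDVR r A hr hA
  refine ⟨fun c => ?_, ?_, ?_, fun p hp => ?_⟩
  · show GInt A (phiA A M _)
    rw [GC_phiA_const]
    exact gint_inc _
  · show GInt A (phiA A M _)
    rw [GC_phiA h]
    exact gint_inc _
  · rw [GC_OA_lt, GC_phiA_const]
    refine ⟨gint_inc _, ?_⟩
    rw [gred_inc, rho_single, map_natCast, map_natCast]
    have h1 : (r : kA A) = 0 := by
      have h1 : ((r : A) : Qbar) ∈ A.nonunits := by
        have h0 : (r : Qbar) ∈ A.nonunits := hA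
        simpa using h0
      have h2 : (r : A) ∈ IsLocalRing.maximalIdeal A :=
        (ValuationSubring.coe_mem_nonunits_iff).mp h1
      have h3 := (IsLocalRing.residue_eq_zero_iff (r : A)).mpr h2
      simpa using h3
    rw [h1, map_zero]
  · rw [GC_OA_eq, GC_phiA_aeval h]
    refine ⟨gint_inc _, ?_⟩
    rw [gred_inc, GC_rho_ev]
    obtain ⟨i, hi⟩ := hp
    intro h0
    have h1 : p.map ((resA A).comp (AE.toA A)) = 0 := by
      by_contra hne
      exact HM.transcendental_tq (kA A) a ⟨_, hne, h0⟩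
    have h2 := congrArg (fun q => Polynomial.coeff q i) h1
    simp only [coeff_map, coeff_zero, RingHom.comp_apply] at h2
    have h3 : ¬ IsUnit (p.coeff i) := by
      intro hu
      have h4 : IsUnit (resA A (AE.toA A (p.coeff i))) := (hu.map (AE.toA A)).map (resA A)
      rw [h2] at h4
      exact not_isUnit_zero h4
    have h5 : p.coeff i ∈ IsLocalRing.maximalIdeal (AE A) := (IsLocalRing.mem_maximalIdeal _).2 h3
    rw [hirr.maximalIdeal_eq, Ideal.mem_span_singleton] at h5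
    exact hi h5

/-- **(G1)**. -/
theorem goodCoord (hGRE : GRE.Stmt_GRE) (hDVR : Base.Stmt_DVR) : Stmt_GoodCoord := by
  intro a r M _ hr ha hd hrM A hA t₀ h
  obtain ⟨hdvr, hirr⟩ := hDVR r A hr hA
  have hv := GC_vert hDVR hr hA h
  obtain ⟨g1, g2⟩ := GC_good hr ha hd hrM hA h
  refine ⟨GC_transc h, ⟨hv, (hGRE r A M hr hA t₀ g1).1⟩, ⟨?_, (hGRE r A M hr hA t₀⁻¹ g2).1⟩⟩
  exact stmt_VertInv (AE A) (FE A M) _ t₀ _ hirr.prime hv

end Fermat.Agent.S36.Gre

end
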