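import Fermat.Agent.S36.Gre.Interface
import Fermat.Agent.S36.Crit
import Fermat.Agent.KL.PolyRing
import Fermat.Agent.KL.PolyRing4

/-!
# S36 / Gre, task D5 : integral over `K[t]` + integral at all vertical valuation rings
`⟹` integral over `A₀[t]`
-/

set_option autoImplicit false

namespace Fermat.Agent.S36.Gre

open Fermat.Agent
open Fermat.Agent.INJ (IsInt)
open Fermat.Agent.S36.Val
open Fermat.Agent.KL (Chart PolyR cst crd FinOverR polyX)
open Polynomial

section Clear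

variable {A₀ K F : Type} [CommRing A₀] [IsDomain A₀] [IsDiscreteValuationRing A₀] [Field K]
  [Algebra A₀ K] [IsFractionRing A₀ K] [Field F] [Algebra A₀ F] [Algebra K F]
  [IsScalarTower A₀ K F]

/-- every element of `K` becomes integral after multiplication by a power of `ϖ`. -/
theorem D5_clear_const {ϖ : A₀} (hϖ : Irreducible ϖ) (a : K) :
    ∃ (k : ℕ) (b : A₀), algebraMap A₀ K ϖ ^ k * a = algebraMap A₀ K b := by
  obtain ⟨n, d, hd, rfl⟩ := IsFractionRing.div_surjective (A := A₀) a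
  have hd0 : d ≠ 0 := nonZeroDivisors.ne_zero hd
  obtain ⟨k, u, hu⟩ := IsDiscreteValuationRing.associated_pow_irreducible hd0 hϖ
  have hd' : algebraMap A₀ K d ≠ 0 := by
    rw [Ne, FaithfulSMul.algebraMap_eq_zero_iff]
    exact hd0
  refine ⟨k, u * n, ?_⟩
  rw [← map_pow, ← hu, map_mul, map_mul]
  field_simp

omit [IsDomain A₀] [IsDiscreteValuationRing A₀] [Field K] [Algebra A₀ K] [IsFractionRing A₀ K]
  [Algebra K F] [IsScalarTower A₀ K F] in
theorem D5_pow_mul_mem_mono (ϖ : A₀) (t : F) {c : F} {k k' : ℕ} (hk : k ≤ k')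
    (h : algebraMap A₀ F ϖ ^ k * c ∈ PolyR A₀ t) : algebraMap A₀ F ϖ ^ k' * c ∈ PolyR A₀ t := by
  obtain ⟨j, rfl⟩ := Nat.exists_eq_add_of_le hk
  rw [add_comm, pow_add, mul_assoc]
  exact mul_mem (pow_mem (Subalgebra.algebraMap_mem _ _) _) h

/-- every element of `K[t]` lies in `A₀[t]` after multiplication by a power of `ϖ`. -/
theorem D5_clear {ϖ : A₀} (hϖ : Irreducible ϖ) (t : F) {c : F} (hc : c ∈ Algebra.adjoin K {t}) :
    ∃ k : ℕ, algebraMap A₀ F ϖ ^ k * c ∈ PolyR A₀ t := by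
  induction hc using Algebra.adjoin_induction with
  | mem c hc =>
    rw [Set.mem_singleton_iff] at hc
    subst hc
    exact ⟨0, by rw [pow_zero, one_mul]; exact Algebra.self_mem_adjoin_singleton A₀ _⟩
  | algebraMap a =>
    obtain ⟨k, b, hb⟩ := D5_clear_const hϖ a
    refine ⟨k, ?_⟩
    have h1 := congrArg (algebraMap K F) hb
    rw [map_mul, map_pow, ← IsScalarTower.algebraMap_apply, ← IsScalarTower.algebraMap_apply] at h1
    rw [h1]
    exact Subalgebra.algebraMap_mem _ _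
  | add c c' _ _ h h' =>
    obtain ⟨k, hk⟩ := h
    obtain ⟨k', hk'⟩ := h'
    refine ⟨max k k', ?_⟩
    rw [mul_add]
    exact add_mem (D5_pow_mul_mem_mono ϖ t (le_max_left _ _) hk)
      (D5_pow_mul_mem_mono ϖ t (le_max_right _ _) hk')
  | mul c c' _ _ h h' =>
    obtain ⟨k, hk⟩ := h
    obtain ⟨k', hk'⟩ := h'
    refine ⟨k + k', ?_⟩
    have : algebraMap A₀ F ϖ ^ (k + k') * (c * c')
        = (algebraMap A₀ F ϖ ^ k * c) * (algebraMap A₀ F ϖ ^ k' * c') := by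
      rw [pow_add]
      ring
    rw [this]
    exact mul_mem hk hk'

theorem D5_isIntegral_of_relation {R S : Type*} [CommRing R] [CommRing S] [Algebra R S] (y : S)
    (d : ℕ) (c : Fin d → R)
    (h : y ^ d + ∑ i : Fin d, algebraMap R S (c i) * y ^ (i : ℕ) = 0) : IsIntegral R y := by
  refine ⟨X ^ d + ∑ i : Fin d, C (c i) * X ^ (i : ℕ), monic_X_pow_add (degree_sum_fin_lt c), ?_⟩
  simpa [eval₂_add, eval₂_finsetSum] using h

/-- an element integral over `K[t]` is integral over `A₀[t]` after multiplication by a power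
of `ϖ`. -/
theorem D5_clear_integral {ϖ : A₀} (hϖ : Irreducible ϖ) (t x : F) (hx : IsInt K t x) :
    ∃ k : ℕ, IsIntegral (PolyR A₀ t) (x * algebraMap A₀ F ϖ ^ k) := by
  obtain ⟨p, hp, hpx⟩ := hx
  set n := p.natDegree with hn
  -- the relation
  have hrel : x ^ n + ∑ i : Fin n, ((p.coeff i : Algebra.adjoin K {t}) : F) * x ^ (i : ℕ) = 0 := by
    rw [hp.as_sum] at hpx
    simp only [eval₂_add, eval₂_pow, eval₂_X, eval₂_finsetSum, eval₂_mul, eval₂_C] at hpx
    rw [Finset.sum_range] at hpx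
    exact hpx
  -- a common exponent
  have hk : ∀ i : Fin n, ∃ k : ℕ,
      algebraMap A₀ F ϖ ^ k * ((p.coeff i : Algebra.adjoin K {t}) : F) ∈ PolyR A₀ t :=
    fun i => D5_clear hϖ t (p.coeff i).2
  choose κ hκ using hk
  let k : ℕ := Finset.univ.sup κ
  have hk' : ∀ i : Fin n,
      algebraMap A₀ F ϖ ^ k * ((p.coeff i : Algebra.adjoin K {t}) : F) ∈ PolyR A₀ t :=
    fun i => D5_pow_mul_mem_mono ϖ t (Finset.le_sup (Finset.mem_univ i)) (hκ i)
  refine ⟨k, ?_⟩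
  set w := algebraMap A₀ F ϖ ^ k with hw
  have hwmem : w ∈ PolyR A₀ t := pow_mem (Subalgebra.algebraMap_mem _ _) _
  refine D5_isIntegral_of_relation _ n
    (fun i => ⟨w ^ (n - 1 - (i : ℕ)) * (w * ((p.coeff i : Algebra.adjoin K {t}) : F)),
      mul_mem (pow_mem hwmem _) (hk' i)⟩) ?_
  have e : ∀ i : Fin n, algebraMap (PolyR A₀ t) F
      ⟨w ^ (n - 1 - (i : ℕ)) * (w * ((p.coeff i : Algebra.adjoin K {t}) : F)),
        mul_mem (pow_mem hwmem _) (hk' i)⟩ * (x * w) ^ (i : ℕ)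
      = w ^ n * (((p.coeff i : Algebra.adjoin K {t}) : F) * x ^ (i : ℕ)) := by
    intro i
    show w ^ (n - 1 - (i : ℕ)) * (w * ((p.coeff i : Algebra.adjoin K {t}) : F)) * (x * w) ^ (i : ℕ)
      = _
    have hi : w ^ n = w ^ (n - 1 - (i : ℕ)) * w * w ^ (i : ℕ) := by
      rw [← pow_succ, ← pow_add]
      congr 1
      have := i.2
      omega
    rw [hi, mul_pow]
    ring
  rw [Finset.sum_congr rfl fun i _ => e i, ← Finset.mul_sum, mul_pow, mul_comm (x ^ n), ← mul_add,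
    hrel, mul_zero]

end Clear

theorem intVert (h : Val.Stmt_CenAbs) : Stmt_IntVert := by
  intro A₀ K F _ _ _ _ _ _ _ _ _ _ _ _ ϖ t x hϖ ht hfin hO hx
  obtain ⟨hpv, -, -⟩ := KL.stmt_polyRConcrete A₀ F t ht
  obtain ⟨hfinB, hnoeth, hdom, hic, hfrac, hfaith, hint⟩ :=
    KL.stmt_chartBasic A₀ (PolyR A₀ t) F (Chart A₀ t) (polyX A₀ t) hpv hfin
  obtain ⟨h1, -⟩ := h A₀ F ϖ t hϖ ht hfin
  obtain ⟨k, hk⟩ := D5_clear_integral (K := K) hϖ t x hx
  have hr : cst A₀ t ϖ ≠ 0 := by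
    intro h0
    have h2 : algebraMap A₀ F ϖ = 0 := congrArg (algebraMap (Chart A₀ t) F) h0
    rw [FaithfulSMul.algebraMap_eq_zero_iff] at h2
    exact hϖ.ne_zero h2
  obtain ⟨b, hb⟩ := Crit.crit (B := Chart A₀ t) (F := F) (cst A₀ t ϖ) hr x k ⟨⟨_, hk⟩, rfl⟩ (by
    intro P hP
    obtain ⟨O, hvert, hcen⟩ := h1 P hP
    obtain ⟨s, hs, p, e⟩ := (hcen x).2.2.2 (hO O hvert)
    exact ⟨s, hs, p, by rw [mul_comm]; exact e⟩)
  rw [hb]
  exact b.2

end Fermat.Agent.S36.Gre
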