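import Fermat.Agent.INJ.Interface

/-!
# S36 / Gre, task GRE-G2b, abstract part (helper99)

`O` a valuation subring of `F`, `ρ : O →+* Fb` its reduction.  If every element of `Fb` integral over
`k[ρ x]` lifts to an element of `O` integral over `A₀[x]`, then the chart with coordinate `x` has the
lifting property.
-/

set_option autoImplicit false

namespace Fermat.Agent.S36.Gre

open Polynomial

/-- reduction of an integral equation. -/
theorem LG_isIntegral_red {A₀ F k Fb : Type*} [CommRing A₀] [Field F] [Algebra A₀ F] [Field k]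
    [Field Fb] [Algebra k Fb] (x : F) (O : ValuationSubring F) (ρ : O →+* Fb)
    (hc : ∀ a : A₀, ∃ h : algebraMap A₀ F a ∈ O, ρ ⟨_, h⟩ ∈ (algebraMap k Fb).range)
    (hx : x ∈ O) (z : F) (hz : z ∈ O) (p : (Algebra.adjoin A₀ ({x} : Set F))[X]) (hp : p.Monic)
    (hpz : ∃ h : aeval z p ∈ O, ρ ⟨_, h⟩ = 0) :
    IsIntegral (Algebra.adjoin k ({ρ ⟨x, hx⟩} : Set Fb)) (ρ ⟨z, hz⟩) := by
  -- the coefficients reduce into `k[ρ x]`
  have key : ∀ c ∈ Algebra.adjoin A₀ ({x} : Set F),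
      ∃ h : c ∈ O, ρ ⟨c, h⟩ ∈ Algebra.adjoin k ({ρ ⟨x, hx⟩} : Set Fb) := by
    intro c hcm
    induction hcm using Algebra.adjoin_induction with
    | mem y hy =>
      rw [Set.mem_singleton_iff] at hy
      subst hy
      exact ⟨hx, Algebra.subset_adjoin rfl⟩
    | algebraMap a =>
      obtain ⟨h, b, hb⟩ := hc a
      exact ⟨h, by rw [← hb]; exact Subalgebra.algebraMap_mem _ b⟩
    | add u v _ _ hu hv =>
      obtain ⟨h1, h2⟩ := hu
      obtain ⟨h3, h4⟩ := hv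
      refine ⟨add_mem h1 h3, ?_⟩
      have : (⟨u + v, add_mem h1 h3⟩ : O) = ⟨u, h1⟩ + ⟨v, h3⟩ := rfl
      rw [this, map_add]
      exact add_mem h2 h4
    | mul u v _ _ hu hv =>
      obtain ⟨h1, h2⟩ := hu
      obtain ⟨h3, h4⟩ := hv
      refine ⟨mul_mem h1 h3, ?_⟩
      have : (⟨u * v, mul_mem h1 h3⟩ : O) = ⟨u, h1⟩ * ⟨v, h3⟩ := rfl
      rw [this, map_mul]
      exact mul_mem h2 h4
  -- the inclusion `A₀[x] → O`
  let ι : Algebra.adjoin A₀ ({x} : Set F) →+* O :=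
    (algebraMap (Algebra.adjoin A₀ ({x} : Set F)) F).codRestrict O.toSubring
      (fun c => (key c.1 c.2).1)
  let φ : Algebra.adjoin A₀ ({x} : Set F) →+* Algebra.adjoin k ({ρ ⟨x, hx⟩} : Set Fb) :=
    (ρ.comp ι).codRestrict (Algebra.adjoin k ({ρ ⟨x, hx⟩} : Set Fb)).toSubring
      (fun c => (key c.1 c.2).2)
  refine ⟨p.map φ, hp.map φ, ?_⟩
  rw [eval₂_map]
  have h1 : (algebraMap (Algebra.adjoin k ({ρ ⟨x, hx⟩} : Set Fb)) Fb).comp φ = ρ.comp ι := by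
    ext c
    rfl
  rw [h1, ← hom_eval₂]
  obtain ⟨h, h0⟩ := hpz
  have h2 : eval₂ ι (⟨z, hz⟩ : O) p = ⟨aeval z p, h⟩ := by
    apply Subtype.ext
    have h3 : ((eval₂ ι (⟨z, hz⟩ : O) p : O) : F) = O.subtype (eval₂ ι (⟨z, hz⟩ : O) p) := rfl
    rw [h3, hom_eval₂]
    rfl
  rw [h2, h0]

/-- **the abstract lifting property.** -/
theorem LG_lift_abs {A₀ F k Fb : Type*} [CommRing A₀] [Field F] [Algebra A₀ F] [Field k]
    [Field Fb] [Algebra k Fb] (x : F) (O : ValuationSubring F) (ρ : O →+* Fb)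
    (hc : ∀ a : A₀, ∃ h : algebraMap A₀ F a ∈ O, ρ ⟨_, h⟩ ∈ (algebraMap k Fb).range)
    (hx : x ∈ O) (hker : ∀ w : O, ρ w = 0 ↔ O.valuation (w : F) < 1)
    (hlift : ∀ yb : Fb, IsIntegral (Algebra.adjoin k ({ρ ⟨x, hx⟩} : Set Fb)) yb →
      ∃ y : O, IsIntegral (Algebra.adjoin A₀ ({x} : Set F)) (y : F) ∧ ρ y = yb) :
    ∀ z ∈ O, (∃ p : (Algebra.adjoin A₀ ({x} : Set F))[X], p.Monic ∧ O.valuation (aeval z p) < 1) →
      ∃ y : F, IsIntegral (Algebra.adjoin A₀ ({x} : Set F)) y ∧ O.valuation (z - y) < 1 := by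
  rintro z hz ⟨p, hp, hpz⟩
  have hmem : aeval z p ∈ O := (O.valuation_le_one_iff _).1 hpz.le
  have h1 := LG_isIntegral_red x O ρ hc hx z hz p hp ⟨hmem, (hker ⟨_, hmem⟩).2 hpz⟩
  obtain ⟨y, hy, hyz⟩ := hlift _ h1
  refine ⟨y, hy, ?_⟩
  have h2 : ρ (⟨z, hz⟩ - y) = 0 := by rw [map_sub, hyz, sub_self]
  exact (hker _).1 h2

open Fermat.Agent.INJ (RedData IsInt) in
/-- **the lifting property from normality of the special fibre upstairs + descent.**
`F₀ → F` an extension of function fields (extension of constants), `D` a reduction datum on `F`,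
`O₀` the restriction of `D.O` to `F₀`. -/
theorem LG_lift_red (hN : Fermat.Agent.INJ.Stmt_Normal) {A₀ F₀ : Type*} {K F k Fb : Type}
    [CommRing A₀] [Field F₀]
    [Algebra A₀ F₀] [Field K] [Field F] [Algebra K F] [Field k] [Field Fb] [Algebra k Fb]
    [IsAlgClosed K] [CharZero K]
    (D : RedData K F k Fb) (ε : F₀ →+* F) (x : F₀) (O₀ : ValuationSubring F₀)
    (hmem : ∀ w : F₀, w ∈ O₀ ↔ ε w ∈ D.O)
    (hconst : ∀ a : A₀, ∃ c ∈ D.A, ε (algebraMap A₀ F₀ a) = algebraMap K F c)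
    (hx : x ∈ O₀) (hC : Fermat.Agent.INJ.Chart D (ε x)) (hBr : Fermat.Agent.INJ.Branch D (ε x))
    (hdesc : ∀ y' ∈ D.O, IsInt K (ε x) y' →
      ∃ z' ∈ O₀, IsIntegral (Algebra.adjoin A₀ ({x} : Set F₀)) z' ∧ D.rd (ε z') = D.rd y') :
    ∀ z ∈ O₀, (∃ p : (Algebra.adjoin A₀ ({x} : Set F₀))[X], p.Monic ∧
        O₀.valuation (aeval z p) < 1) →
      ∃ y : F₀, IsIntegral (Algebra.adjoin A₀ ({x} : Set F₀)) y ∧ O₀.valuation (z - y) < 1 := by
  let e : O₀ →+* D.O := ε.restrict O₀ D.O (fun w hw => (hmem w).1 hw)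
  let ρ : O₀ →+* Fb := D.rO.comp e
  have hρ : ∀ w : O₀, ρ w = D.rd (ε (w : F₀)) :=
    fun w => (RedData.rd_of_mem ((hmem w).1 w.2)).symm
  refine LG_lift_abs (k := k) x O₀ ρ ?_ hx ?_ ?_
  · intro a
    obtain ⟨c, hc, hac⟩ := hconst a
    have h : algebraMap A₀ F₀ a ∈ O₀ := by
      rw [hmem, hac]; exact RedData.algebraMap_mem hc
    refine ⟨h, D.ra c, ?_⟩
    rw [hρ]
    show _ = D.rd (ε (algebraMap A₀ F₀ a))
    rw [hac, RedData.rd_algebraMap hc]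
  · intro w
    rw [hρ]
    by_cases hw0 : (w : F₀) = 0
    · rw [hw0, map_zero, map_zero]
      simp
    have hεw0 : ε (w : F₀) ≠ 0 := (map_ne_zero ε).2 hw0
    have hv : O₀.valuation (w : F₀) < 1 ↔ (w : F₀)⁻¹ ∉ O₀ := by
      rw [← O₀.valuation_le_one_iff, map_inv₀, not_le]
      have h0 : O₀.valuation (w : F₀) ≠ 0 := (O₀.valuation.ne_zero_iff).2 hw0
      exact (one_lt_inv₀ (zero_lt_iff.2 h0)).symm
    rw [hv, hmem, map_inv₀]
    constructor
    · intro h0 h1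
      exact RedData.rd_ne_zero_of_inv_mem hεw0 ((hmem w).1 w.2) h1 h0
    · intro h1
      by_contra h0
      exact h1 (RedData.inv_mem_of_rd_ne_zero h0)
  · intro yb hyb
    rw [hρ] at hyb
    obtain ⟨y', hy'O, hy'int, hy'rd⟩ := hN K F k Fb D (ε x) hC hBr yb hyb
    obtain ⟨z', hz'O, hz'int, hz'rd⟩ := hdesc y' hy'O hy'int
    exact ⟨⟨z', hz'O⟩, hz'int, by rw [hρ, ← hy'rd]; exact hz'rd⟩

end Fermat.Agent.S36.Gre
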