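import Fermat.Agent.S36.Gre.Interface
import Fermat.Agent.S36.Gre.LiftGreAbs
import Fermat.Agent.INJ.All

/-!
# S36 / Gre, task GRE-G2b : the lifting property at level `M` on both charts (`Stmt_LiftGre`) (helper99)
-/

set_option autoImplicit false
set_option synthInstance.maxHeartbeats 400000

noncomputable section

namespace Fermat.Agent.S36.Gre

open Fermat.Agent
open Fermat.Agent.S24 (Qbar FF)
open Fermat.Agent.INJ (RedData IsInt)
open Fermat.Agent.INJ.Inst (kA IsGauss)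
open Fermat.Agent.S36.Base Fermat.Agent.S36.Val
open Fermat.Agent.KL (Chart PolyR cst crd FinOverR)
open Polynomial

/-- one chart. -/
theorem LG_one (hN : INJ.Stmt_Normal) (hB : Stmt_GaussBridge) (hR : Stmt_ResLift)
    (hV : Stmt_IntVert) (hDVR : Base.Stmt_DVR) (hFin : Base.Stmt_Fin)
    (r M : ℕ) [NeZero M] (hr : r.Prime) (A : ValuationSubring Qbar) (hA : A.LiesOverPrime r)
    (L : IntermediateField (kA A) (LaurentSeries (kA A))) (D : RedData Qbar (FF M) (kA A) L)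
    (hD : IsGauss M A L D) (x : FE A M) (hxt : Transcendental (IE A) x)
    (hG : GoodCoord A r M x) (hC : INJ.Chart D (emb A M x)) (hBr : INJ.Branch D (emb A M x)) :
    LiftProp (AE A) x (OA A M) := by
  obtain ⟨hdvr, hirr⟩ := hDVR r A hr hA
  have := hdvr
  obtain ⟨htr, hfin⟩ := hFin A M x hxt
  have hmem : ∀ w : FE A M, w ∈ OA A M ↔ emb A M w ∈ D.O :=
    fun w => ((hB M A L D hD (emb A M w)).1).symm
  have hgr : ∀ w : FE A M, ((D.rd (emb A M w) : L) : LaurentSeries (kA A))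
      = gred A (phiA A M w) := fun w => (hB M A L D hD (emb A M w)).2
  have hx : x ∈ OA A M := hG.1.2.1
  refine LG_lift_red hN D (emb A M) x (OA A M) hmem ?_ hx hC hBr ?_
  · intro a
    refine ⟨algebraMap (IE A) Qbar (algebraMap (AE A) (IE A) a), ?_, emb_algebraMap A M _⟩
    rw [hD.hA]; exact AE.mem A a
  · intro y' hy'O hy'int
    obtain ⟨z', hz'O, hz'g, hz'int⟩ := hR r A hr hA M y' ((hB M A L D hD y').1.1 hy'O)
    refine ⟨z', hz'O, ?_, ?_⟩
    · exact hV (AE A) (IE A) (FE A M) ((r : ℕ) : AE A) x z' hirr htr hfin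
        (fun O hO => by rw [hG.2 O hO]; exact hz'O) (hz'int x hy'int)
    · apply Subtype.ext
      rw [hgr, hz'g]
      exact ((hB M A L D hD y').2).symm

/-- **GRE-G2b.** -/
theorem liftGre (hB : Stmt_GaussBridge) (hR : Stmt_ResLift) (hV : Stmt_IntVert)
    (hG : Stmt_GoodCoord) (hC : HM.Stmt_ChartHM) (hBr : HM.Stmt_BranchHM) (hDVR : Base.Stmt_DVR)
    (hFin : Base.Stmt_Fin) (hEx : INJ.Inst.Stmt_ExGauss) : Stmt_LiftGre := by
  intro a r M _ hr ha haM hrM A hA t₀ ht₀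
  have : Fact r.Prime := ⟨hr⟩
  obtain ⟨L, D, hD⟩ := hEx M r A hA
  obtain ⟨htr, hG1, hG2⟩ := hG a r M hr ha haM hrM A hA t₀ ht₀
  have hq : ((emb A M t₀ : FF M) : LaurentSeries Qbar) = HM.tq a Qbar := by
    rw [coe_emb, ht₀]
    exact HM.coeffMap_tq _ a
  obtain ⟨hC1, hC2⟩ := hC a M r ha haM hrM A hA L D hD (emb A M t₀) hq
  obtain ⟨hB1, hB2⟩ := hBr a M r ha haM hrM A hA L D hD (emb A M t₀) hq
  have htr' : Transcendental (IE A) t₀⁻¹ := by
    intro h
    apply htr
    have := h.inv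
    rwa [inv_inv] at this
  refine ⟨LG_one INJ.all_Normal hB hR hV hDVR hFin r M hr A hA L D hD t₀ htr hG1 hC1 hB1,
    LG_one INJ.all_Normal hB hR hV hDVR hFin r M hr A hA L D hD t₀⁻¹ htr' hG2
      (by rw [map_inv₀]; exact hC2) (by rw [map_inv₀]; exact hB2)⟩

end Fermat.Agent.S36.Gre

end
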