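import Fermat.Agent.S36.Gre.Interface

/-!
# S36 / Gre, (G2a) : `NorInt` from the lifting property (`Stmt_NorAbs`)
-/

set_option autoImplicit false
set_option linter.style.haveILetI false

namespace Fermat.Agent.S36.Gre

open Fermat.Agent
open Fermat.Agent.S36.Val
open Fermat.Agent.KL (Chart PolyR cst)
open Polynomial

/-- evaluation modulo the maximal ideal of a valuation ring. -/
theorem NorAbs_lt_one_iff {S F : Type*} [CommRing S] [Field F] [Algebra S F]
    (O : ValuationSubring F) (ρ : S →+* O) (hρ : ∀ s, ((ρ s : O) : F) = algebraMap S F s)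
    (z : F) (hz : z ∈ O) (q : S[X]) :
    O.valuation (aeval z q) < 1 ↔
      eval₂ ((IsLocalRing.residue O).comp ρ) (IsLocalRing.residue O ⟨z, hz⟩) q = 0 := by
  have h1 : aeval z q = ((eval₂ ρ (⟨z, hz⟩ : O) q : O) : F) := by
    have h := Polynomial.hom_eval₂ q ρ O.subtype (⟨z, hz⟩ : O)
    have h2 : O.subtype.comp ρ = algebraMap S F := RingHom.ext fun s => hρ s
    rw [h2] at h
    rw [aeval_def]
    exact h.symm
  rw [h1, ← ValuationSubring.valuation_lt_one_iff, ← IsLocalRing.residue_eq_zero_iff,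
    Polynomial.hom_eval₂]

/-- a monic equation over `B` modulo the maximal ideal gives a monic equation over `R`, if `B` is
integral over `R`. -/
theorem NorAbs_core {R B F : Type*} [CommRing R] [CommRing B] [Field F] [Algebra R B] [Algebra B F]
    [Algebra R F] [IsScalarTower R B F] [Algebra.IsIntegral R B] (O : ValuationSubring F)
    (hB : ∀ b : B, algebraMap B F b ∈ O) (z : F) (hz : z ∈ O) (p : B[X]) (hp : p.Monic)
    (hpz : O.valuation (aeval z p) < 1) :
    ∃ p0 : R[X], p0.Monic ∧ O.valuation (aeval z p0) < 1 := by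
  let ρB : B →+* O := (algebraMap B F).codRestrict O hB
  let φ : B →+* IsLocalRing.ResidueField O := (IsLocalRing.residue O).comp ρB
  letI : Algebra B (IsLocalRing.ResidueField O) := φ.toAlgebra
  letI : Algebra R (IsLocalRing.ResidueField O) := (φ.comp (algebraMap R B)).toAlgebra
  haveI : IsScalarTower R B (IsLocalRing.ResidueField O) :=
    IsScalarTower.of_algebraMap_eq fun _ => rfl
  have h1 : IsIntegral B (IsLocalRing.residue O ⟨z, hz⟩) :=
    ⟨p, hp, (NorAbs_lt_one_iff O ρB (fun _ => rfl) z hz p).1 hpz⟩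
  obtain ⟨p0, hp0, hp0z⟩ := isIntegral_trans (R := R) _ h1
  refine ⟨p0, hp0, (NorAbs_lt_one_iff O (ρB.comp (algebraMap R B)) (fun s => ?_) z hz p0).2 hp0z⟩
  exact (IsScalarTower.algebraMap_apply R B F s).symm

theorem norAbs : Stmt_NorAbs := by
  intro A₀ F _ _ _ _ _ _ _ ϖ t O _ _ _ hlift P hP hcen z hz ⟨p, hp, hpz⟩
  have hPp : P.IsPrime := hP.1.1
  have h1P : (1 : Chart A₀ t) ∉ P := (Ideal.ne_top_iff_one P).1 hPp.ne_top
  have hzO : z ∈ O := ((hcen z).2.2).1 hz
  have hpz' : O.valuation (aeval z p) < 1 := ((hcen _).1).1 hpz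
  have hBO : ∀ b : Chart A₀ t, algebraMap (Chart A₀ t) F b ∈ O := fun b =>
    ((hcen _).2.2).1 ⟨1, h1P, b, by rw [map_one, one_mul]⟩
  obtain ⟨p0, hp0, hp0z⟩ := NorAbs_core (R := PolyR A₀ t) O hBO z hzO p hp hpz'
  obtain ⟨y, hy, hzy⟩ := hlift z hzO ⟨p0, hp0, hp0z⟩
  exact ⟨⟨y, hy⟩, ((hcen _).1).2 hzy⟩

end Fermat.Agent.S36.Gre
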