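import Fermat.Agent.S36.Gre.Interface

/-!
# S36 / Gre, task GRE-G2 (helper77): normality of the special fibre at level `M`, assembly
-/

set_option autoImplicit false
set_option linter.style.haveILetI false
set_option synthInstance.maxHeartbeats 400000

noncomputable section

namespace Fermat.Agent.S36.Gre

open Fermat.Agent
open Fermat.Agent.S24 (Qbar FF)
open Fermat.Agent.S36.Base Fermat.Agent.S36.Val
open Fermat.Agent.KL (Chart PolyR cst crd FinOverR)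
open Polynomial

/-- the abstract form. -/
theorem NorGre_abs (h1 : Stmt_NorAbs) (h4 : Val.Stmt_CenAbs) (A₀ F : Type) [CommRing A₀]
    [IsDomain A₀] [IsDiscreteValuationRing A₀] [Field F] [CharZero F] [Algebra A₀ F]
    [FaithfulSMul A₀ F] (ϖ : A₀) (x : F) (O₀ : ValuationSubring F) (hϖ : Irreducible ϖ)
    (hx : Transcendental A₀ x) (hfin : FinOverR (PolyR A₀ x) F)
    (huniq : ∀ O : ValuationSubring F, IsVert A₀ ϖ x O → O = O₀) (hlift : LiftProp A₀ x O₀) :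
    NorChart A₀ F ϖ x := by
  intro P hP
  obtain ⟨O, hO, hc⟩ := (h4 A₀ F ϖ x hϖ hx hfin).1 P hP
  rw [huniq O hO] at hc
  exact h1 A₀ F ϖ x O₀ hϖ hx hfin hlift P hP hc

theorem norGre (h1 : Stmt_NorAbs) (h2 : Stmt_LiftGre) (h3 : Stmt_GoodCoord) (h4 : Val.Stmt_CenAbs)
    (h5 : Base.Stmt_DVR) (h6 : Base.Stmt_Fin) : Stmt_NorGre := by
  intro a r M _ hr ha haM hrM A hA t₀ ht₀
  obtain ⟨hdvr, hirr⟩ := h5 r A hr hA
  haveI := hdvr
  obtain ⟨htr, hg, hg'⟩ := h3 a r M hr ha haM hrM A hA t₀ ht₀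
  obtain ⟨hl, hl'⟩ := h2 a r M hr ha haM hrM A hA t₀ ht₀
  have htr' : Transcendental (IE A) t₀⁻¹ := fun h => htr (by simpa using h.inv)
  obtain ⟨hT, hF⟩ := h6 A M t₀ htr
  obtain ⟨hT', hF'⟩ := h6 A M t₀⁻¹ htr'
  exact ⟨NorGre_abs h1 h4 (AE A) (FE A M) _ t₀ (OA A M) hirr hT hF hg.2 hl,
    NorGre_abs h1 h4 (AE A) (FE A M) _ t₀⁻¹ (OA A M) hirr hT' hF' hg'.2 hl'⟩

end Fermat.Agent.S36.Gre

end
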